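import Mathlib
import Fermat.Agent.F3.Interfaces

/-!
# S29 assembly, part 1: the base-changed Galois representation and finite level

`Y` is a `ℤ`-module with an action of `G_ℚ` by linear maps (`gal`), such that every element has an
open stabiliser.  We study the representation `rhoM gal : G_ℚ →* End_k (k ⊗ Y)`.
-/

set_option autoImplicit false
set_option linter.style.haveILetI false
set_option linter.unusedSectionVars false

noncomputable section

namespace Fermat.Agent.S29Asm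

open Fermat.Agent.F3 (GQ)
open scoped TensorProduct

local notation "Qb" => AlgebraicClosure ℚ

theorem normal_Qb : Normal ℚ Qb := by
  haveI : Algebra.IsAlgebraic ℚ Qb := AlgebraicClosure.isAlgebraic ℚ
  haveI : IsAlgClosure ℚ Qb := ⟨inferInstance, inferInstance⟩
  infer_instance

/-- `σ` fixes the intermediate field `L` pointwise. -/
def Fixes (L : IntermediateField ℚ Qb) (σ : GQ) : Prop := ∀ a ∈ L, σ a = a

lemma Fixes.mono {L L' : IntermediateField ℚ Qb} (h : L ≤ L') {σ : GQ} (hσ : Fixes L' σ) :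
    Fixes L σ := fun a ha => hσ a (h ha)

lemma Fixes.one (L : IntermediateField ℚ Qb) : Fixes L 1 := fun _ _ => rfl

lemma Fixes.mul {L : IntermediateField ℚ Qb} {σ τ : GQ} (hσ : Fixes L σ) (hτ : Fixes L τ) :
    Fixes L (σ * τ) := fun a ha => by
  rw [AlgEquiv.mul_apply, hτ a ha, hσ a ha]

lemma Fixes.inv {L : IntermediateField ℚ Qb} {σ : GQ} (hσ : Fixes L σ) : Fixes L σ⁻¹ :=
  fun a ha => by
    have h := hσ a ha
    calc σ⁻¹ a = σ⁻¹ (σ a) := by rw [h]
      _ = a := by rw [← AlgEquiv.mul_apply, inv_mul_cancel, AlgEquiv.one_apply]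

/-- For a normal `L`, every `τ` maps `L` into itself. -/
lemma apply_mem_of_normal' (L : IntermediateField ℚ Qb) [Normal ℚ L] (τ : GQ) {a : Qb}
    (ha : a ∈ L) : τ a ∈ L := by
  have h := AlgEquiv.restrictNormal_commutes τ L ⟨a, ha⟩
  have h' : τ a = ((τ.restrictNormal L ⟨a, ha⟩ : L) : Qb) := h.symm
  rw [h']
  exact (τ.restrictNormal L ⟨a, ha⟩).2

/-- For a normal `L`, the elements fixing `L` form a normal subgroup. -/
lemma Fixes.conj {L : IntermediateField ℚ Qb} [Normal ℚ L] {σ : GQ} (hσ : Fixes L σ) (τ : GQ) :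
    Fixes L (τ⁻¹ * σ * τ) := fun a ha => by
  have h1 : τ a ∈ L := apply_mem_of_normal' L τ ha
  rw [AlgEquiv.mul_apply, AlgEquiv.mul_apply, hσ _ h1, ← AlgEquiv.mul_apply, inv_mul_cancel,
    AlgEquiv.one_apply]

/-- If `σ` and `τ` agree on `L`, then `τ⁻¹ σ` fixes `L`. -/
lemma fixes_inv_mul_of_agree {L : IntermediateField ℚ Qb} {σ τ : GQ}
    (h : ∀ a ∈ L, σ a = τ a) : Fixes L (τ⁻¹ * σ) := fun a ha => by
  rw [AlgEquiv.mul_apply, h a ha, ← AlgEquiv.mul_apply, inv_mul_cancel, AlgEquiv.one_apply]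

section Rep

variable {Y : Type} [AddCommGroup Y] (gal : GQ →* Module.End ℤ Y)
variable (k : Type) [Field k]

/-- The base-changed representation on `k ⊗ Y`. -/
def rhoM : GQ →* Module.End k (k ⊗[ℤ] Y) where
  toFun σ := (gal σ).baseChange k
  map_one' := by rw [map_one, LinearMap.baseChange_one]
  map_mul' σ τ := by rw [map_mul, LinearMap.baseChange_mul]

@[simp] lemma rhoM_apply (σ : GQ) : rhoM gal k σ = (gal σ).baseChange k := rfl

lemma rhoM_tmul (σ : GQ) (c : k) (y : Y) : rhoM gal k σ (c ⊗ₜ[ℤ] y) = c ⊗ₜ[ℤ] gal σ y := by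
  rw [rhoM_apply, LinearMap.baseChange_tmul]

/-- `Y` has open stabilisers. -/
def OpenStab : Prop :=
  ∀ y : Y, ∃ L : IntermediateField ℚ Qb, FiniteDimensional ℚ L ∧
    ∀ σ : GQ, Fixes L σ → gal σ y = y

variable {gal}

/-- Every element of `k ⊗ Y` has an open stabiliser. -/
lemma exists_level_fix (hopen : OpenStab gal) (x : k ⊗[ℤ] Y) :
    ∃ L : IntermediateField ℚ Qb, FiniteDimensional ℚ L ∧
      ∀ σ : GQ, Fixes L σ → rhoM gal k σ x = x := by
  induction x using TensorProduct.induction_on with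
  | zero => exact ⟨⊥, inferInstance, fun σ _ => map_zero _⟩
  | tmul c y =>
    obtain ⟨L, hL, h⟩ := hopen y
    exact ⟨L, hL, fun σ hσ => by rw [rhoM_tmul, h σ hσ]⟩
  | add x₁ x₂ h₁ h₂ =>
    obtain ⟨L₁, hL₁, h₁⟩ := h₁
    obtain ⟨L₂, hL₂, h₂⟩ := h₂
    refine ⟨L₁ ⊔ L₂, IntermediateField.finiteDimensional_sup L₁ L₂, fun σ hσ => ?_⟩
    rw [map_add, h₁ σ (hσ.mono le_sup_left), h₂ σ (hσ.mono le_sup_right)]

/-- Every element of `k ⊗ Y` is fixed by the elements fixing a suitable finite *normal*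
extension containing a given finite extension `L₀`. -/
lemma exists_normal_level_fix (hopen : OpenStab gal) (x : k ⊗[ℤ] Y)
    (L₀ : IntermediateField ℚ Qb) (hL₀ : FiniteDimensional ℚ L₀) :
    ∃ L : IntermediateField ℚ Qb, FiniteDimensional ℚ L ∧ Normal ℚ L ∧ L₀ ≤ L ∧
      ∀ σ : GQ, Fixes L σ → rhoM gal k σ x = x := by
  obtain ⟨L₁, hL₁, h₁⟩ := exists_level_fix k hopen x
  haveI : FiniteDimensional ℚ (L₁ ⊔ L₀ : IntermediateField ℚ Qb) :=
    IntermediateField.finiteDimensional_sup L₁ L₀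
  haveI hNQ : Normal ℚ Qb := normal_Qb
  have hfd : FiniteDimensional ℚ
      (IntermediateField.normalClosure ℚ (L₁ ⊔ L₀ : IntermediateField ℚ Qb) Qb) := by
    infer_instance
  have hnor : Normal ℚ
      (IntermediateField.normalClosure ℚ (L₁ ⊔ L₀ : IntermediateField ℚ Qb) Qb) :=
    normalClosure.normal ℚ (L₁ ⊔ L₀ : IntermediateField ℚ Qb) Qb
  refine ⟨IntermediateField.normalClosure ℚ (L₁ ⊔ L₀ : IntermediateField ℚ Qb) Qb,
    hfd, hnor, ?_, fun σ hσ => ?_⟩
  · exact le_sup_right.trans (IntermediateField.le_normalClosure _)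
  · exact h₁ σ (hσ.mono (le_sup_left.trans (IntermediateField.le_normalClosure _)))

/-- The orbit of an element with open stabiliser is finite. -/
lemma finite_orbit (x : k ⊗[ℤ] Y) (L : IntermediateField ℚ Qb) [FiniteDimensional ℚ L]
    (h : ∀ σ : GQ, Fixes L σ → rhoM gal k σ x = x) :
    (Set.range fun σ : GQ => rhoM gal k σ x).Finite := by
  classical
  let r : GQ → (L →ₐ[ℚ] Qb) := fun σ => (σ : Qb →ₐ[ℚ] Qb).comp L.val
  have hfac : ∀ σ τ : GQ, r σ = r τ → rhoM gal k σ x = rhoM gal k τ x := by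
    intro σ τ hστ
    have hagree : ∀ a ∈ L, σ a = τ a := by
      intro a ha
      exact congrArg (fun f : L →ₐ[ℚ] Qb => f ⟨a, ha⟩) hστ
    have h1 := h _ (fixes_inv_mul_of_agree hagree)
    have h2 : rhoM gal k σ x = rhoM gal k τ (rhoM gal k (τ⁻¹ * σ) x) := by
      rw [← Module.End.mul_apply, ← map_mul, mul_inv_cancel_left]
    rw [h2, h1]
  let g : (L →ₐ[ℚ] Qb) → k ⊗[ℤ] Y := fun φ =>
    if hφ : ∃ σ, r σ = φ then rhoM gal k hφ.choose x else 0
  have hsub : (Set.range fun σ : GQ => rhoM gal k σ x) ⊆ Set.range g := by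
    rintro _ ⟨σ, rfl⟩
    refine ⟨r σ, ?_⟩
    have hex : ∃ τ, r τ = r σ := ⟨σ, rfl⟩
    simp only [g, dif_pos hex]
    exact hfac _ _ hex.choose_spec
  exact (Set.finite_range g).subset hsub

end Rep

end Fermat.Agent.S29Asm
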