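import Fermat.Agent.S29.CoreSimple

set_option autoImplicit false

/-!
# S29 core, part 3: the abstract two-dimensional representation

`exists_two_dim_rep`: let `ρ : Γ →* End_F(W)` be a nonzero finite-dimensional representation,
`ω : Γ →* Fˣ` a character and `P ⊆ Γ × F` a set of "Frobenius pairs" `(σ, a)` such that `ρ σ` is
killed by a split quadratic `(X - c)(X - d)`, `c + d = a`, `c d = ω σ`.  If every `g` is, on `W` and
for `ω`, a power of some Frobenius pair, there is a 2-dimensional representation `ρV` with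
`charpoly (ρV σ) = X² - a X + ω σ` for all `(σ, a) ∈ P`, trivial where `ρ` and `ω` are.
-/

namespace Fermat.Agent.S29Core

open Polynomial Module

section Restrict

variable {Γ : Type*} [Group Γ] {F : Type*} [Field F] {W : Type*} [AddCommGroup W] [Module F W]

/-- `U` is stable under `ρ`. -/
def IsInvariant (ρ : Γ →* Module.End F W) (U : Submodule F W) : Prop :=
  ∀ g, ∀ v ∈ U, ρ g v ∈ U

/-- The restriction of a representation to an invariant subspace. -/
def restrictRep (ρ : Γ →* Module.End F W) (U : Submodule F W) (hU : IsInvariant ρ U) :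
    Γ →* Module.End F U where
  toFun g := (ρ g).restrict (hU g)
  map_one' := by
    ext v
    simp
  map_mul' g h := by
    ext v
    simp [map_mul]

@[simp] theorem coe_restrictRep_apply (ρ : Γ →* Module.End F W) (U : Submodule F W)
    (hU : IsInvariant ρ U) (g : Γ) (v : U) :
    ((restrictRep ρ U hU g v : U) : W) = ρ g (v : W) := rfl

theorem splitQuad_restrict {ρ : Γ →* Module.End F W} {ω : Γ →* Fˣ} (hQ : SplitQuad ρ ω)
    (U : Submodule F W) (hU : IsInvariant ρ U) : SplitQuad (restrictRep ρ U hU) ω := by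
  intro g
  obtain ⟨a, b, hab, h⟩ := hQ g
  refine ⟨a, b, hab, ?_⟩
  ext v
  have := congrArg (fun f : Module.End F W => f (v : W)) h
  simpa using this

theorem exists_minimal_invariant [FiniteDimensional F W] [Nontrivial W]
    (ρ : Γ →* Module.End F W) :
    ∃ U : Submodule F W, U ≠ ⊥ ∧ IsInvariant ρ U ∧
      ∀ U' : Submodule F W, U' ≤ U → IsInvariant ρ U' → U' = ⊥ ∨ U' = U := by
  have hwf : WellFounded ((· < ·) : Submodule F W → Submodule F W → Prop) := wellFounded_lt
  obtain ⟨U, ⟨hU0, hUinv⟩, hmin⟩ := hwf.has_min {U : Submodule F W | U ≠ ⊥ ∧ IsInvariant ρ U}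
    ⟨⊤, top_ne_bot, fun _ _ _ => Submodule.mem_top⟩
  refine ⟨U, hU0, hUinv, fun U' hle hinv => ?_⟩
  by_cases h0 : U' = ⊥
  · exact Or.inl h0
  · right
    have := hmin U' ⟨h0, hinv⟩
    exact (eq_or_lt_of_le hle).resolve_right this

theorem simple_restrict {ρ : Γ →* Module.End F W} (U : Submodule F W) (hU : IsInvariant ρ U)
    (hmin : ∀ U' : Submodule F W, U' ≤ U → IsInvariant ρ U' → U' = ⊥ ∨ U' = U)
    (U'' : Submodule F U) (h'' : ∀ g, ∀ v ∈ U'', restrictRep ρ U hU g v ∈ U'') :
    U'' = ⊥ ∨ U'' = ⊤ := by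
  have hle : U''.map U.subtype ≤ U := Submodule.map_subtype_le U U''
  have hinv : IsInvariant ρ (U''.map U.subtype) := by
    rintro g _ ⟨v, hv, rfl⟩
    exact ⟨restrictRep ρ U hU g v, h'' g v hv, rfl⟩
  rcases hmin _ hle hinv with h | h
  · left
    rw [eq_bot_iff]
    intro v hv
    have hv' : (v : W) ∈ U''.map U.subtype := ⟨v, hv, rfl⟩
    rw [h] at hv'
    exact (Submodule.mem_bot F).mpr (Subtype.ext ((Submodule.mem_bot F).mp hv'))
  · right
    rw [eq_top_iff]
    intro v _
    have hv : (v : W) ∈ U''.map U.subtype := by rw [h]; exact v.2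
    obtain ⟨w, hw, hwv⟩ := hv
    have : w = v := Subtype.ext hwv
    rwa [← this]

end Restrict

section Diag

variable {Γ : Type*} [Group Γ] {F : Type*} [Field F]

/-- The representation `χ₁ ⊕ χ₂` on `F × F`. -/
def diagRep (χ₁ χ₂ : Γ →* F) : Γ →* Module.End F (F × F) where
  toFun g := LinearMap.prodMap (χ₁ g • (1 : Module.End F F)) (χ₂ g • (1 : Module.End F F))
  map_one' := by
    ext <;> simp
  map_mul' g h := by
    have e1 : χ₁ (g * h) • (1 : Module.End F F) =
        (χ₁ g • (1 : Module.End F F)) * (χ₁ h • (1 : Module.End F F)) := by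
      rw [smul_mul_smul_comm, one_mul, map_mul]
    have e2 : χ₂ (g * h) • (1 : Module.End F F) =
        (χ₂ g • (1 : Module.End F F)) * (χ₂ h • (1 : Module.End F F)) := by
      rw [smul_mul_smul_comm, one_mul, map_mul]
    rw [e1, e2]
    exact (LinearMap.prodMap_mul _ _ _ _).symm

theorem diagRep_apply (χ₁ χ₂ : Γ →* F) (g : Γ) :
    diagRep χ₁ χ₂ g =
      LinearMap.prodMap (χ₁ g • (1 : Module.End F F)) (χ₂ g • (1 : Module.End F F)) := rfl

theorem charpoly_diagRep (χ₁ χ₂ : Γ →* F) (g : Γ) :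
    LinearMap.charpoly (diagRep χ₁ χ₂ g) = (X - C (χ₁ g)) * (X - C (χ₂ g)) := by
  rw [diagRep_apply, LinearMap.charpoly_prodMap, charpoly_smul_one, charpoly_smul_one,
    Module.finrank_self, pow_one, pow_one]

theorem diagRep_eq_one (χ₁ χ₂ : Γ →* F) (g : Γ) (h1 : χ₁ g = 1) (h2 : χ₂ g = 1) :
    diagRep χ₁ χ₂ g = 1 := by
  rw [diagRep_apply, h1, h2]
  ext <;> simp

end Diag

section Main

variable {Γ : Type*} [Group Γ] {F : Type} [Field F] {W : Type} [AddCommGroup W] [Module F W]

theorem splitQuad_of_dense (ρ : Γ →* Module.End F W) (ω : Γ →* Fˣ) (P : Set (Γ × F))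
    (hP : ∀ σ a, (σ, a) ∈ P → ∃ c d : F, c + d = a ∧ c * d = (ω σ : F) ∧
      (ρ σ - c • (1 : Module.End F W)) * (ρ σ - d • (1 : Module.End F W)) = 0)
    (hdense : ∀ g : Γ, ∃ σ a, (σ, a) ∈ P ∧ ∃ m : ℕ, ρ g = ρ σ ^ m ∧ ω g = ω σ ^ m) :
    SplitQuad ρ ω := by
  intro g
  obtain ⟨σ, a, hσ, m, hρ, hω⟩ := hdense g
  obtain ⟨c, d, -, hcd, hq⟩ := hP σ a hσ
  refine ⟨c ^ m, d ^ m, ?_, ?_⟩
  · rw [hω, Units.val_pow_eq_pow_val, ← hcd, mul_pow]
  · rw [hρ]
    exact pow_quad_zero (ρ σ) c d hq m

variable [FiniteDimensional F W] [Nontrivial W]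

/-- **The abstract core.** -/
theorem exists_two_dim_rep (ρ : Γ →* Module.End F W) (ω : Γ →* Fˣ) (P : Set (Γ × F))
    (hP : ∀ σ a, (σ, a) ∈ P → ∃ c d : F, c + d = a ∧ c * d = (ω σ : F) ∧
      (ρ σ - c • (1 : Module.End F W)) * (ρ σ - d • (1 : Module.End F W)) = 0)
    (hdense : ∀ g : Γ, ∃ σ a, (σ, a) ∈ P ∧ ∃ m : ℕ, ρ g = ρ σ ^ m ∧ ω g = ω σ ^ m) :
    ∃ (V : Type) (_ : AddCommGroup V) (_ : Module F V) (_ : Module.Finite F V)
      (ρV : Γ →* Module.End F V),
      Module.finrank F V = 2 ∧ (∀ g, ρ g = 1 → ω g = 1 → ρV g = 1) ∧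
      ∀ σ a, (σ, a) ∈ P → LinearMap.charpoly (ρV σ) = X ^ 2 - C a * X + C (ω σ : F) := by
  classical
  have hQ : SplitQuad ρ ω := splitQuad_of_dense ρ ω P hP hdense
  obtain ⟨U, hU0, hUinv, hmin⟩ := exists_minimal_invariant ρ
  set ρ₁ := restrictRep ρ U hUinv with hρ₁
  have hQ₁ : SplitQuad ρ₁ ω := splitQuad_restrict hQ U hUinv
  have hsimple := simple_restrict U hUinv hmin
  have : Nontrivial U := Submodule.nontrivial_iff_ne_bot.mpr hU0
  -- restriction of the quadratic relation of a Frobenius pair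
  have hP₁ : ∀ σ a, (σ, a) ∈ P → ∃ c d : F, c + d = a ∧ c * d = (ω σ : F) ∧
      (ρ₁ σ - c • (1 : Module.End F U)) * (ρ₁ σ - d • (1 : Module.End F U)) = 0 := by
    intro σ a hσ
    obtain ⟨c, d, h1, h2, h3⟩ := hP σ a hσ
    refine ⟨c, d, h1, h2, ?_⟩
    ext v
    have := congrArg (fun f : Module.End F W => f (v : W)) h3
    simpa [hρ₁] using this
  have hker₁ : ∀ g, ρ g = 1 → ρ₁ g = 1 := by
    intro g hg
    ext v
    simp [hρ₁, hg]
  by_cases hsc : ∀ g, IsScalarEnd (ρ₁ g)
  · -- Case A: everything is scalar on `U`; use `χ ⊕ ω χ⁻¹`.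
    choose χ hχ using hsc
    have hχmul : ∀ g h, χ (g * h) = χ g * χ h := by
      intro g h
      apply smul_one_injective (V := U)
      rw [← hχ (g * h), map_mul, hχ g, hχ h, smul_mul_smul_comm, one_mul]
    have hχone : χ 1 = 1 := by
      apply smul_one_injective (V := U)
      rw [← hχ 1, map_one, one_smul]
    have hχne : ∀ g, χ g ≠ 0 := by
      intro g h0
      have := hχmul g g⁻¹
      rw [mul_inv_cancel, hχone, h0, zero_mul] at this
      exact one_ne_zero this
    let χ₁ : Γ →* F := { toFun := χ, map_one' := hχone, map_mul' := hχmul }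
    let χ₂ : Γ →* F :=
      { toFun := fun g => (ω g : F) * (χ g)⁻¹
        map_one' := by simp [hχone]
        map_mul' := fun g h => by
          rw [hχmul, map_mul, Units.val_mul, mul_inv]; ring }
    refine ⟨F × F, inferInstance, inferInstance, inferInstance, diagRep χ₁ χ₂, ?_, ?_, ?_⟩
    · rw [Module.finrank_prod, Module.finrank_self]
    · intro g hg hω
      have h1 : χ g = 1 := by
        apply smul_one_injective (V := U)
        rw [← hχ g, hker₁ g hg, one_smul]
      apply diagRep_eq_one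
      · exact h1
      · show (ω g : F) * (χ g)⁻¹ = 1
        rw [h1, hω]; simp
    · intro σ a hσ
      obtain ⟨c, d, hcd, hprod, hq⟩ := hP₁ σ a hσ
      have hr : (χ σ - c) * (χ σ - d) = 0 := by
        rw [hχ σ, smul_one_quad] at hq
        have := smul_one_injective (V := U) (c := (χ σ - c) * (χ σ - d)) (c' := 0)
          (by rw [hq, zero_smul])
        exact this
      have hcharp : LinearMap.charpoly (diagRep χ₁ χ₂ σ) =
          (X - C (χ σ)) * (X - C ((ω σ : F) * (χ σ)⁻¹)) := charpoly_diagRep χ₁ χ₂ σ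
      rw [hcharp, poly_identity]
      have hc0 : c ≠ 0 := by
        rintro rfl
        rw [zero_mul] at hprod
        exact (ω σ).ne_zero hprod.symm
      have hd0 : d ≠ 0 := by
        rintro rfl
        rw [mul_zero] at hprod
        exact (ω σ).ne_zero hprod.symm
      rcases mul_eq_zero.mp hr with h | h
      · have hχc : χ σ = c := sub_eq_zero.mp h
        have e2 : (ω σ : F) * (χ σ)⁻¹ = d := by
          rw [hχc, ← hprod, mul_comm c d, mul_assoc, mul_inv_cancel₀ hc0, mul_one]
        rw [e2, hχc, hcd, hprod]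
      · have hχd : χ σ = d := sub_eq_zero.mp h
        have e2 : (ω σ : F) * (χ σ)⁻¹ = c := by
          rw [hχd, ← hprod, mul_assoc, mul_inv_cancel₀ hd0, mul_one]
        rw [e2, hχd, add_comm d c, mul_comm d c, hcd, hprod]
  · -- Case B: some operator is not scalar on `U`; then `dim U = 2`.
    push Not at hsc
    obtain ⟨g₀, hg₀⟩ := hsc
    have hfin : finrank F U = 2 := finrank_eq_two_of_simple hQ₁ hsimple g₀ hg₀
    refine ⟨U, inferInstance, inferInstance, inferInstance, ρ₁, hfin, fun g hg _ => hker₁ g hg, ?_⟩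
    intro σ a hσ
    obtain ⟨c, d, hcd, hprod, hq⟩ := hP₁ σ a hσ
    by_cases hσsc : IsScalarEnd (ρ₁ σ)
    · obtain ⟨r, hr⟩ := hσsc
      -- r² = ω σ via the non-scalar element σ g₀
      have hr0 : r ≠ 0 := by
        rintro rfl
        rw [zero_smul] at hr
        have h1 := rho_mul_inv ρ₁ σ
        rw [hr, zero_mul] at h1
        exact zero_ne_one h1
      obtain ⟨a₀, b₀, hab₀, hq₀⟩ := hQ₁ g₀
      obtain ⟨a₁, b₁, hab₁, hq₁⟩ := hQ₁ (σ * g₀)
      have hns : ¬ IsScalarEnd (ρ₁ (σ * g₀)) := by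
        rintro ⟨s, hs⟩
        apply hg₀
        refine ⟨r⁻¹ * s, ?_⟩
        rw [map_mul, hr, smul_mul_assoc, one_mul] at hs
        rw [mul_smul, ← hs, smul_smul, inv_mul_cancel₀ hr0, one_smul]
      have hq₂ : (ρ₁ (σ * g₀) - (r * a₀) • (1 : Module.End F U)) *
          (ρ₁ (σ * g₀) - (r * b₀) • (1 : Module.End F U)) = 0 := by
        rw [map_mul, hr, smul_mul_assoc, one_mul, smul_quad, hq₀, smul_zero]
      have hprod2 := (sum_prod_eq_of_not_scalar _ hns hq₁ hq₂).2
      have hrr : r * r = (ω σ : F) := by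
        have h1 : (ω (σ * g₀) : F) = (ω σ : F) * (ω g₀ : F) := by
          rw [map_mul, Units.val_mul]
        have h2 : (ω σ : F) * (ω g₀ : F) = r * r * (ω g₀ : F) := by
          rw [← h1, ← hab₁, hprod2, ← hab₀]; ring
        exact (mul_right_cancel₀ (ω g₀).ne_zero h2).symm
      have hrcd : (r - c) * (r - d) = 0 := by
        rw [hr, smul_one_quad] at hq
        exact smul_one_injective (V := U) (c := (r - c) * (r - d)) (c' := 0)
          (by rw [hq, zero_smul])
      have hc0 : c ≠ 0 := by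
        rintro rfl
        rw [zero_mul] at hprod
        exact (ω σ).ne_zero hprod.symm
      have hd0 : d ≠ 0 := by
        rintro rfl
        rw [mul_zero] at hprod
        exact (ω σ).ne_zero hprod.symm
      have hcd_eq : c = r ∧ d = r := by
        rcases mul_eq_zero.mp hrcd with h | h
        · have hrc : r = c := sub_eq_zero.mp h
          refine ⟨hrc.symm, ?_⟩
          have : c * c = c * d := by rw [← hrc, hrr, ← hprod, ← hrc]
          rw [hrc]; exact (mul_left_cancel₀ hc0 this).symm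
        · have hrd : r = d := sub_eq_zero.mp h
          refine ⟨?_, hrd.symm⟩
          have : d * d = c * d := by rw [← hrd, hrr, ← hprod, ← hrd]
          rw [hrd]; exact (mul_right_cancel₀ hd0 this).symm
      rw [hr, charpoly_smul_one_of_finrank_two hfin, ← hcd, ← hprod, hcd_eq.1, hcd_eq.2,
        poly_identity]
    · rw [charpoly_eq_of_not_scalar hfin (ρ₁ σ) hσsc hq, poly_identity, hcd, hprod]

end Main

end Fermat.Agent.S29Core
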