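import Mathlib
import Fermat.Prelude.Def_GaloisRep_Residual
import Fermat.Agent.F3.Interfaces
import Fermat.Agent.S29.CoreAbstract
import Fermat.Agent.S29.AsmLevel

/-!
# S29 assembly, part 2: the abstract assembly

From a `ℤ`-module `Y` with a Galois action `gal` and operators `T ℓ` satisfying the
Eichler--Shimura relation, a nonzero eigenclass `x ∈ k ⊗ Y`, a character `ω` with the
properties of the mod `p` cyclotomic character, and `FrobDensityLite`, we construct a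
`ResidualGaloisRep k` with the expected characteristic polynomials of Frobenius.
-/

set_option autoImplicit false
set_option linter.style.haveILetI false
set_option linter.unusedSectionVars false

noncomputable section

namespace Fermat.Agent.S29Asm

open Fermat.Agent.F3 (GQ FrobDensityLite)
open Fermat.Agent.S29Core
open scoped TensorProduct
open Polynomial

local notation "Qb" => AlgebraicClosure ℚ

section Core

variable {Y : Type} [AddCommGroup Y] (gal : GQ →* Module.End ℤ Y)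
  (T : Nat.Primes → Module.End ℤ Y)
variable {k : Type} [Field k] (N p : ℕ)

/-- The abstract hypotheses of the S29 assembly. -/
structure Inputs (ω : GQ →* kˣ) (x : k ⊗[ℤ] Y) (a : Nat.Primes → k) : Prop where
  dense : FrobDensityLite
  openStab : OpenStab gal
  comm : ∀ (ℓ : Nat.Primes) (σ : GQ), T ℓ * gal σ = gal σ * T ℓ
  unram : ∀ ℓ : ℕ, ℓ.Prime → ¬ ℓ ∣ N * p → ∀ A : ValuationSubring Qb, A.LiesOverPrime ℓ →
    ∀ σ ∈ A.inertiaSubgroupIn ℚ, gal σ = 1
  quad : ∀ (ℓ : ℕ) (hℓ : ℓ.Prime), ¬ ℓ ∣ N * p → ∀ A : ValuationSubring Qb,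
    A.LiesOverPrime ℓ → ∀ σ : GQ, A.IsFrobeniusAt σ ℓ →
      gal σ * gal σ - T ⟨ℓ, hℓ⟩ * gal σ + (ℓ : ℤ) • (1 : Module.End ℤ Y) = 0
  x_ne : x ≠ 0
  eigen : ∀ ℓ : Nat.Primes, ¬ (ℓ : ℕ) ∣ N * p → (T ℓ).baseChange k x = a ℓ • x
  split : ∀ ℓ : Nat.Primes, ¬ (ℓ : ℕ) ∣ N * p → ∃ c d : k, c + d = a ℓ ∧ c * d = ((ℓ : ℕ) : k)
  ω_frob : ∀ ℓ : ℕ, ℓ.Prime → ¬ ℓ ∣ N * p → ∀ A : ValuationSubring Qb, A.LiesOverPrime ℓ →
    ∀ σ : GQ, A.IsFrobeniusAt σ ℓ → ((ω σ : kˣ) : k) = (ℓ : k)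
  ω_inertia : ∀ ℓ : ℕ, ℓ.Prime → ¬ ℓ ∣ N * p → ∀ A : ValuationSubring Qb, A.LiesOverPrime ℓ →
    ∀ σ ∈ A.inertiaSubgroupIn ℚ, ω σ = 1
  ω_level : ∃ L : IntermediateField ℚ Qb, FiniteDimensional ℚ L ∧ ∀ σ : GQ, Fixes L σ → ω σ = 1
  Np_ne : N * p ≠ 0

variable {gal T N p}

/-- The span of the orbit of `x`. -/
def orbitSpan (gal : GQ →* Module.End ℤ Y) (x : k ⊗[ℤ] Y) : Submodule k (k ⊗[ℤ] Y) :=
  Submodule.span k (Set.range fun σ : GQ => rhoM gal k σ x)

lemma mem_orbitSpan_self (x : k ⊗[ℤ] Y) : x ∈ orbitSpan gal x :=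
  Submodule.subset_span ⟨1, by
    show rhoM gal k 1 x = x
    rw [map_one]; rfl⟩

lemma orbitSpan_invariant (x : k ⊗[ℤ] Y) : IsInvariant (rhoM gal k) (orbitSpan gal x) := by
  intro τ w hw
  induction hw using Submodule.span_induction with
  | mem w hw =>
    obtain ⟨σ, rfl⟩ := hw
    refine Submodule.subset_span ⟨τ * σ, ?_⟩
    show rhoM gal k (τ * σ) x = rhoM gal k τ (rhoM gal k σ x)
    rw [map_mul]; rfl
  | zero => rw [map_zero]; exact Submodule.zero_mem _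
  | add u v _ _ hu hv => rw [map_add]; exact Submodule.add_mem _ hu hv
  | smul c u _ hu => rw [map_smul]; exact Submodule.smul_mem _ c hu

/-- A monoid homomorphism trivial on `Fixes L` takes the same value on elements agreeing on
`L`. -/
lemma eq_of_agree {Mo : Type*} [Monoid Mo] (f : GQ →* Mo) {L : IntermediateField ℚ Qb}
    (hf : ∀ σ : GQ, Fixes L σ → f σ = 1) {σ τ : GQ} (h : ∀ a ∈ L, σ a = τ a) : f σ = f τ := by
  have h1 := hf _ (fixes_inv_mul_of_agree h)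
  have h2 : f σ = f τ * f (τ⁻¹ * σ) := by rw [← map_mul, mul_inv_cancel_left]
  rw [h2, h1, mul_one]

/-- From `FrobDensityLite`: every `g` is a power of a Frobenius, for any monoid homomorphism
factoring through `L`. -/
lemma exists_frob_pow (hF : FrobDensityLite) (hNp : N * p ≠ 0)
    (L : IntermediateField ℚ Qb) (hL : FiniteDimensional ℚ L) (hLn : Normal ℚ L) (g : GQ) :
    ∃ (ℓ : ℕ) (A : ValuationSubring Qb) (τ : GQ) (j : ℕ),
      ℓ.Prime ∧ ¬ ℓ ∣ N * p ∧ A.LiesOverPrime ℓ ∧ A.IsFrobeniusAt τ ℓ ∧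
      ∀ {Mo : Type} [Monoid Mo] (f : GQ →* Mo), (∀ σ : GQ, Fixes L σ → f σ = 1) →
        f g = f τ ^ j := by
  obtain ⟨ℓ, A, τ, m, j, hℓ, hℓS, hA, hτ, h1, h2⟩ := hF L hL hLn g (N * p).primeFactors
  refine ⟨ℓ, A, τ, j, hℓ, ?_, hA, hτ, ?_⟩
  · intro hdvd
    exact hℓS (Nat.mem_primeFactors.mpr ⟨hℓ, hdvd, hNp⟩)
  · intro Mo _ f hf
    have e1 : f τ = f (g ^ m) := eq_of_agree f hf h1
    have e2 : f (g ^ (m * j)) = f g := eq_of_agree f hf h2
    rw [← e2, e1, pow_mul, map_pow, map_pow]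

variable {ω : GQ →* kˣ} {x : k ⊗[ℤ] Y} {a : Nat.Primes → k}

/-- The eigen-property holds on the whole orbit span. -/
lemma eigen_on_orbitSpan (h : Inputs gal T N p ω x a) (ℓ : Nat.Primes)
    (hℓ : ¬ (ℓ : ℕ) ∣ N * p) {w : k ⊗[ℤ] Y} (hw : w ∈ orbitSpan gal x) :
    (T ℓ).baseChange k w = a ℓ • w := by
  induction hw using Submodule.span_induction with
  | mem w hw =>
    obtain ⟨σ, rfl⟩ := hw
    show (T ℓ).baseChange k ((gal σ).baseChange k x) = a ℓ • (gal σ).baseChange k x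
    have e : (T ℓ).baseChange k ((gal σ).baseChange k x)
        = (gal σ).baseChange k ((T ℓ).baseChange k x) := by
      rw [← Module.End.mul_apply, ← Module.End.mul_apply, ← LinearMap.baseChange_mul,
        ← LinearMap.baseChange_mul, h.comm ℓ σ]
    rw [e, h.eigen ℓ hℓ, map_smul]
  | zero => rw [map_zero, smul_zero]
  | add u v _ _ hu hv => rw [map_add, hu, hv, smul_add]
  | smul c u _ hu => rw [map_smul, hu, smul_comm]

/-- The Eichler--Shimura relation on `k ⊗ Y`. -/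
lemma quad_baseChange (h : Inputs gal T N p ω x a) (ℓ : ℕ) (hℓ : ℓ.Prime) (hℓN : ¬ ℓ ∣ N * p)
    (A : ValuationSubring Qb) (hA : A.LiesOverPrime ℓ) (σ : GQ) (hσ : A.IsFrobeniusAt σ ℓ)
    (w : k ⊗[ℤ] Y) :
    rhoM gal k σ (rhoM gal k σ w) - (T ⟨ℓ, hℓ⟩).baseChange k (rhoM gal k σ w) + (ℓ : k) • w
      = 0 := by
  have h1 := congrArg (fun f : Module.End ℤ Y => f.baseChange k) (h.quad ℓ hℓ hℓN A hA σ hσ)
  simp only [LinearMap.baseChange_add, LinearMap.baseChange_sub, LinearMap.baseChange_mul,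
    LinearMap.baseChange_smul, LinearMap.baseChange_one, LinearMap.baseChange_zero] at h1
  have h2 := congrArg (fun f : Module.End k (k ⊗[ℤ] Y) => f w) h1
  simp only [LinearMap.add_apply, LinearMap.sub_apply, Module.End.mul_apply,
    LinearMap.smul_apply, Module.End.one_apply, LinearMap.zero_apply] at h2
  rw [rhoM_apply]
  rw [← h2]
  congr 1
  rw [← Int.cast_smul_eq_zsmul k (ℓ : ℤ) w, Int.cast_natCast]

end Core

end Fermat.Agent.S29Asm
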