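import Fermat.Agent.S29.AsmWire
import Fermat.Agent.Lib.Cyclo.OmegaK

/-!
# S29 assembly: the cyclotomic input

`hasCyclo`: the mod `p` cyclotomic character of `Fermat.Agent.Cyclo` (helper29) supplies the
hypothesis `HasCyclo p k` of `s29At_of_inputs`, for every prime `p` and every field `k` of
characteristic `p`.
-/

set_option autoImplicit false
set_option linter.style.haveILetI false

namespace Fermat.Agent.S29Asm

/-- The mod `p` cyclotomic character exists with values in every field of characteristic `p`. -/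
theorem hasCyclo (p : ℕ) (hp : p.Prime) (k : Type) [Field k] [CharP k p] : HasCyclo p k := by
  haveI : Fact p.Prime := ⟨hp⟩
  refine ⟨Fermat.Agent.Cyclo.omegaK p k, ?_, ?_, ?_⟩
  · intro ℓ hℓ hℓp A hA σ hσ
    exact Fermat.Agent.Cyclo.omegaK_frobenius p k hℓ hℓp A hA σ hσ
  · intro ℓ hℓ hℓp A hA σ hσ
    exact Fermat.Agent.Cyclo.omegaK_inertia p k hℓ hℓp A hA σ hσ
  · exact Fermat.Agent.Cyclo.omegaK_finiteLevel p k

/-- `s29At_of_inputs` with the cyclotomic input discharged. -/
theorem s29At_of_torsion (N : ℕ) [NeZero N]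
    (hF : Fermat.Agent.F3.FrobDensityLite) (hU : Fermat.Agent.F3.TorsionUnramified N)
    (hQ : Fermat.Agent.F3.TorsionFrobQuadratic N) (hO : Fermat.Agent.F3.TorsionOpenStab N)
    (hC : Fermat.Agent.F3.HeckeGaloisComm N) (hE : Fermat.Agent.F3.EigenclassModP N) :
    Fermat.Agent.F3.S29At N :=
  s29At_of_inputs N hF hU hQ hO hC hE (fun p hp k _ _ => hasCyclo p hp k)

end Fermat.Agent.S29Asm
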