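import Fermat.Agent.S29.AsmCyclo
import Fermat.Agent.F3.FrobDensityLiteFinal
import Fermat.Agent.F3.OpenStab
import Fermat.Agent.F3.Galois.HeckeComm

/-!
# S29 assembly: all unconditional inputs discharged

`s29At_of_three`: the frozen statement S29 at level `N ≠ 0` follows from the three interface
propositions that are still open (`TorsionUnramified N`, `TorsionFrobQuadratic N`: cluster B;
`EigenclassModP N`: cluster A, analytic side).  The other inputs of `s29At_of_inputs` are
unconditional theorems: Frobenius density (`F3.frobDensityLite`), open stabilisers
(`F3.torsionOpenStab`), Hecke/Galois commutation (`heckeGaloisComm`) and the cyclotomic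
character (`hasCyclo`).

`s29At_all`: the same for every level, the level `0` being vacuous.
-/

set_option autoImplicit false
set_option linter.style.haveILetI false

namespace Fermat.Agent.S29Asm

open Fermat.Agent.F3

/-- S29 at level `N ≠ 0` from the three open interface propositions. -/
theorem s29At_of_three (N : ℕ) [NeZero N]
    (hU : TorsionUnramified N) (hQ : TorsionFrobQuadratic N) (hE : EigenclassModP N) :
    S29At N :=
  s29At_of_torsion N frobDensityLite hU hQ (torsionOpenStab N)
    (Fermat.Agent.F3G.heckeGaloisComm N) hE

/-- S29 at every level from the three open interface propositions at the nonzero levels. -/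
theorem s29At_all
    (h : ∀ (N : ℕ) [NeZero N],
      TorsionUnramified N ∧ TorsionFrobQuadratic N ∧ EigenclassModP N) (N : ℕ) :
    S29At N := by
  rcases Nat.eq_zero_or_pos N with rfl | hN
  · exact s29At_zero
  · haveI : NeZero N := ⟨hN.ne'⟩
    obtain ⟨hU, hQ, hE⟩ := h N
    exact s29At_of_three N hU hQ hE

end Fermat.Agent.S29Asm
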