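import Fermat.Agent.S29.AsmStatus
import Fermat.Agent.F3.I2.Final

/-!
# S29 assembly: the only open input is the KEY LEMMA

`s29At_of_keyLemma`: the frozen statement S29 (at every level) follows from
`GaussInt.KeyLemmaAt N` for every `N ≠ 0` (cluster B: prime-to-`ℓ` torsion of `J₀(N)` injects
under reduction modulo a place over `ℓ ∤ N`).  `KappaModP` is helper43's theorem
`F3I2.kappaModP`, the Hecke inputs are helper76's theorem.

`s29_frozen_of_keyLemma` has the exact shape of the frozen statement (binder by binder).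
-/

set_option autoImplicit false
set_option linter.style.haveILetI false

namespace Fermat.Agent.S29Asm

open Fermat.Agent.F3 ModularCurve

/-- S29 at level `N ≠ 0` from the KEY LEMMA at level `N`. -/
theorem s29At_of_keyLemma_at (N : ℕ) [NeZero N]
    (hKL : Fermat.Agent.GaussInt.KeyLemmaAt N) : S29At N :=
  s29At_of_remaining_at N hKL
    (fun ℓ =>
      haveI : NeZero (ℓ : ℕ) := ⟨ℓ.2.ne_zero⟩
      Fermat.Agent.HeckeInputs.hi_heckeInputsAlong_Qbar N ℓ)
    (Fermat.Agent.F3I2.kappaModP N)

/-- S29 at every level from the KEY LEMMA at every level. -/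
theorem s29At_of_keyLemma
    (hKL : ∀ (N : ℕ) [NeZero N], Fermat.Agent.GaussInt.KeyLemmaAt N) (N : ℕ) : S29At N :=
  s29At_of_two hKL (fun N _ => Fermat.Agent.F3I2.kappaModP N) N

/-- The frozen statement S29 (exact binders) from the KEY LEMMA at every level. -/
theorem s29_frozen_of_keyLemma
    (hKL : ∀ (N : ℕ) [NeZero N], Fermat.Agent.GaussInt.KeyLemmaAt N)
    {N : ℕ} {g : CuspForm (CongruenceSubgroup.Gamma0 N) 2}
    (hg : g.IsNormalizedEigenform) {p : ℕ} (hp : p.Prime)
    {k : Type} [Field k] [CharP k p]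
    (φ : integralClosure ℤ ℂ →+* k) :
    ∃ ρ : ResidualGaloisRep k, ρ.IsAttachedTo g φ ∧
      ∀ ℓ : ℕ, ℓ.Prime → ¬ ℓ ∣ N * p → ρ.IsUnramifiedAt ℓ :=
  s29At_of_keyLemma hKL N g hg p hp k φ

end Fermat.Agent.S29Asm
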