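import Mathlib
import Fermat.Agent.S29.AsmCore

/-!
# S29 assembly, part 3: the abstract main theorem
-/

set_option autoImplicit false
set_option linter.style.haveILetI false
set_option linter.unusedSectionVars false

noncomputable section

namespace Fermat.Agent.S29Asm

open Fermat.Agent.F3 (GQ FrobDensityLite)
open Fermat.Agent.S29Core
open scoped TensorProduct
open Polynomial

local notation "Qb" => AlgebraicClosure ℚ

variable {Y : Type} [AddCommGroup Y] {gal : GQ →* Module.End ℤ Y}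
  {T : Nat.Primes → Module.End ℤ Y}
variable {k : Type} [Field k] {N p : ℕ}
variable {ω : GQ →* kˣ} {x : k ⊗[ℤ] Y} {a : Nat.Primes → k}

/-- The restricted representation on the orbit span. -/
def rhoW (gal : GQ →* Module.End ℤ Y) (x : k ⊗[ℤ] Y) :
    GQ →* Module.End k (orbitSpan gal x) :=
  restrictRep (rhoM gal k) (orbitSpan gal x) (orbitSpan_invariant x)

lemma coe_rhoW_apply (σ : GQ) (w : orbitSpan gal x) :
    ((rhoW gal x σ w : orbitSpan gal x) : k ⊗[ℤ] Y) = rhoM gal k σ (w : k ⊗[ℤ] Y) := rfl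

/-- `rhoW` is trivial on elements fixing a normal level of `x`. -/
lemma rhoW_eq_one_of_fixes {L : IntermediateField ℚ Qb} [Normal ℚ L]
    (hL : ∀ σ : GQ, Fixes L σ → rhoM gal k σ x = x) {σ : GQ} (hσ : Fixes L σ) :
    rhoW gal x σ = 1 := by
  ext ⟨w, hw⟩
  show rhoM gal k σ w = w
  induction hw using Submodule.span_induction with
  | mem w hw =>
    obtain ⟨τ, rfl⟩ := hw
    show rhoM gal k σ (rhoM gal k τ x) = rhoM gal k τ x
    have e : rhoM gal k σ (rhoM gal k τ x) = rhoM gal k τ (rhoM gal k (τ⁻¹ * σ * τ) x) := by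
      rw [← Module.End.mul_apply, ← Module.End.mul_apply, ← map_mul, ← map_mul]
      congr 2
      group
    rw [e, hL _ (hσ.conj τ)]
  | zero => rw [map_zero]
  | add u v _ _ hu hv => rw [map_add, hu, hv]
  | smul c u _ hu => rw [map_smul, hu]

lemma rhoW_eq_one_of_gal_eq_one {σ : GQ} (hσ : gal σ = 1) : rhoW gal x σ = 1 := by
  ext ⟨w, hw⟩
  show rhoM gal k σ w = w
  rw [rhoM_apply, hσ, LinearMap.baseChange_one]
  rfl

/-- The split quadratic relation for Frobenius elements on the orbit span. -/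
lemma rhoW_quad (h : Inputs gal T N p ω x a) (ℓ : ℕ) (hℓ : ℓ.Prime) (hℓN : ¬ ℓ ∣ N * p)
    (A : ValuationSubring Qb) (hA : A.LiesOverPrime ℓ) (σ : GQ) (hσ : A.IsFrobeniusAt σ ℓ)
    {c d : k} (hcd : c + d = a ⟨ℓ, hℓ⟩) (hcd' : c * d = (ℓ : k)) :
    (rhoW gal x σ - c • (1 : Module.End k (orbitSpan gal x))) *
      (rhoW gal x σ - d • (1 : Module.End k (orbitSpan gal x))) = 0 := by
  ext ⟨w, hw⟩
  have h1 := quad_baseChange h ℓ hℓ hℓN A hA σ hσ w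
  have hσw : rhoM gal k σ w ∈ orbitSpan gal x := orbitSpan_invariant x σ w hw
  rw [eigen_on_orbitSpan h ⟨ℓ, hℓ⟩ hℓN hσw] at h1
  simp only [Module.End.mul_apply, LinearMap.sub_apply, LinearMap.smul_apply,
    Module.End.one_apply, LinearMap.zero_apply, Submodule.coe_sub, Submodule.coe_smul,
    coe_rhoW_apply, Submodule.coe_zero, map_sub, map_smul]
  rw [← h1, ← hcd, ← hcd']
  module

/-- **Abstract S29 assembly.** -/
theorem exists_residualRep (h : Inputs gal T N p ω x a) :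
    ∃ ρ : ResidualGaloisRep k,
      (∀ (ℓ : ℕ) (hℓ : ℓ.Prime), ¬ ℓ ∣ N * p → ∀ A : ValuationSubring Qb, A.LiesOverPrime ℓ →
        ∀ σ : GQ, A.IsFrobeniusAt σ ℓ →
          LinearMap.charpoly (ρ.ρ σ) = X ^ 2 - C (a ⟨ℓ, hℓ⟩) * X + C ((ℓ : k))) ∧
      ∀ ℓ : ℕ, ℓ.Prime → ¬ ℓ ∣ N * p → ρ.IsUnramifiedAt ℓ := by
  classical
  obtain ⟨Lω, hLω, hωL⟩ := h.ω_level
  obtain ⟨L, hLfd, hLn, hLω_le, hLfix⟩ := exists_normal_level_fix k h.openStab x Lω hLω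
  haveI := hLfd
  haveI := hLn
  -- the orbit span
  haveI : FiniteDimensional k (orbitSpan gal x) :=
    FiniteDimensional.span_of_finite k (finite_orbit k x L hLfix)
  haveI : Nontrivial (orbitSpan gal x) :=
    ⟨⟨⟨x, mem_orbitSpan_self x⟩, 0, fun h0 => h.x_ne (congrArg Subtype.val h0)⟩⟩
  have hρL : ∀ σ : GQ, Fixes L σ → rhoW gal x σ = 1 := fun σ hσ =>
    rhoW_eq_one_of_fixes hLfix hσ
  have hωL' : ∀ σ : GQ, Fixes L σ → ω σ = 1 := fun σ hσ => hωL σ (hσ.mono hLω_le)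
  -- Frobenius pairs
  let P : Set (GQ × k) := {q | ∃ (ℓ : ℕ) (hℓ : ℓ.Prime), ¬ ℓ ∣ N * p ∧
    ∃ A : ValuationSubring Qb, A.LiesOverPrime ℓ ∧ A.IsFrobeniusAt q.1 ℓ ∧ q.2 = a ⟨ℓ, hℓ⟩}
  have hP : ∀ σ b, (σ, b) ∈ P → ∃ c d : k, c + d = b ∧ c * d = (ω σ : k) ∧
      (rhoW gal x σ - c • (1 : Module.End k (orbitSpan gal x))) *
        (rhoW gal x σ - d • (1 : Module.End k (orbitSpan gal x))) = 0 := by
    rintro σ b ⟨ℓ, hℓ, hℓN, A, hA, hσ, rfl⟩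
    obtain ⟨c, d, hcd, hcd'⟩ := h.split ⟨ℓ, hℓ⟩ hℓN
    refine ⟨c, d, hcd, ?_, rhoW_quad h ℓ hℓ hℓN A hA σ hσ hcd hcd'⟩
    rw [hcd', h.ω_frob ℓ hℓ hℓN A hA σ hσ]
  have hdense : ∀ g : GQ, ∃ σ b, (σ, b) ∈ P ∧ ∃ m : ℕ,
      rhoW gal x g = rhoW gal x σ ^ m ∧ ω g = ω σ ^ m := by
    intro g
    obtain ⟨ℓ, A, τ, j, hℓ, hℓN, hA, hτ, hpow⟩ := exists_frob_pow h.dense h.Np_ne L hLfd hLn g
    exact ⟨τ, a ⟨ℓ, hℓ⟩, ⟨ℓ, hℓ, hℓN, A, hA, hτ, rfl⟩, j, hpow (rhoW gal x) hρL, hpow ω hωL'⟩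
  obtain ⟨V, i1, i2, i3, ρV, hfin2, hker, hchar⟩ :=
    exists_two_dim_rep (rhoW gal x) ω P hP hdense
  letI := i1
  letI := i2
  refine ⟨{ V := V, finrank_eq := hfin2, ρ := ρV,
            factorsThroughFiniteLevel := ⟨L, hLfd, fun σ hσ => hker σ (hρL σ hσ) (hωL' σ hσ)⟩ },
    ?_, ?_⟩
  · intro ℓ hℓ hℓN A hA σ hσ
    have := hchar σ (a ⟨ℓ, hℓ⟩) ⟨ℓ, hℓ, hℓN, A, hA, hσ, rfl⟩
    rw [h.ω_frob ℓ hℓ hℓN A hA σ hσ] at this
    exact this
  · intro ℓ hℓ hℓN A hA σ hσ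
    exact hker σ (rhoW_eq_one_of_gal_eq_one (h.unram ℓ hℓ hℓN A hA σ hσ))
      (h.ω_inertia ℓ hℓ hℓN A hA σ hσ)

end Fermat.Agent.S29Asm
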