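import Fermat.Agent.S29.AsmFinal
import Fermat.Agent.Lib.GaussInt.FrobPowFinal
import Fermat.Agent.Lib.GaussInt.UnramifiedFinal
import Fermat.Agent.F3.EigenclassGlue
import Fermat.Agent.F3.EigenChar.PeriodEigen
import Fermat.Agent.Lib.HeckeInputs.Qbar

/-!
# S29 assembly: current status

`s29At_of_remaining`: the frozen statement S29 (at every level) follows from the three inputs
that are still open:

* `KeyLemmaAt N` (cluster B: prime-to-`ℓ` torsion injects under reduction),
* `HeckeInputsAlong ℚ̄ N ℓ` (the Hecke correspondence `T_ℓ` is defined on `J₀(N)`),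
* `KappaModP N` (cluster A, analytic side: `Hom_par(Γ₀(N), ℤ) / p → J₀(N)(ℚ̄)[p]`).

Everything else is discharged by theorems of the team that are already proved.
-/

set_option autoImplicit false
set_option linter.style.haveILetI false

namespace Fermat.Agent.S29Asm

open Fermat.Agent.F3 ModularCurve

/-- S29 at level `N ≠ 0` from the inputs that are still open. -/
theorem s29At_of_remaining_at (N : ℕ) [NeZero N]
    (hKL : Fermat.Agent.GaussInt.KeyLemmaAt N)
    (hin : ∀ ℓ : Nat.Primes,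
      (haveI : NeZero (ℓ : ℕ) := ⟨ℓ.2.ne_zero⟩; HeckeInputsAlong (AlgebraicClosure ℚ) N ℓ))
    (hκ : KappaModP N) : S29At N :=
  s29At_of_three N
    (Fermat.Agent.GaussInt.torsionUnramified_of_keyLemmaAt hKL)
    (Fermat.Agent.GaussIntFP.torsionFrobQuadratic_of_keyLemmaAt hKL hin)
    (eigenclassModP_of N (Fermat.Agent.F3EC.periodEigen N) hκ)

/-- S29 at every level from the inputs that are still open. -/
theorem s29At_of_remaining
    (hKL : ∀ (N : ℕ) [NeZero N], Fermat.Agent.GaussInt.KeyLemmaAt N)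
    (hin : ∀ (N : ℕ) [NeZero N] (ℓ : Nat.Primes),
      (haveI : NeZero (ℓ : ℕ) := ⟨ℓ.2.ne_zero⟩; HeckeInputsAlong (AlgebraicClosure ℚ) N ℓ))
    (hκ : ∀ (N : ℕ) [NeZero N], KappaModP N) (N : ℕ) : S29At N := by
  rcases Nat.eq_zero_or_pos N with rfl | hN
  · exact s29At_zero
  · haveI : NeZero N := ⟨hN.ne'⟩
    exact s29At_of_remaining_at N (hKL N) (hin N) (hκ N)

/-- S29 at every level from the KEY LEMMA and `KappaModP` (the Hecke inputs are a theorem of
helper76). -/
theorem s29At_of_two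
    (hKL : ∀ (N : ℕ) [NeZero N], Fermat.Agent.GaussInt.KeyLemmaAt N)
    (hκ : ∀ (N : ℕ) [NeZero N], KappaModP N) (N : ℕ) : S29At N :=
  s29At_of_remaining hKL
    (fun N _ ℓ =>
      haveI : NeZero (ℓ : ℕ) := ⟨ℓ.2.ne_zero⟩
      Fermat.Agent.HeckeInputs.hi_heckeInputsAlong_Qbar N ℓ)
    hκ N

end Fermat.Agent.S29Asm
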