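import Mathlib
import Fermat.Agent.S29.AsmMain

/-!
# S29 assembly, part 4: wiring the F3 interface propositions

`s29At_of_inputs`: the interface propositions of cluster A (`FrobDensityLite`, `TorsionUnramified`,
`TorsionFrobQuadratic`, `TorsionOpenStab`, `HeckeGaloisComm`, `EigenclassModP`) together with the
existence of a mod `p` cyclotomic character (`HasCyclo`) imply the frozen statement S29 at level
`N ≠ 0`.  The case `N = 0` is vacuous (`s29At_zero`).
-/

set_option autoImplicit false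
set_option linter.style.haveILetI false
set_option linter.unusedSectionVars false

noncomputable section

namespace Fermat.Agent.S29Asm

open Fermat.Agent.F3
open ModularCurve
open scoped TensorProduct
open Polynomial

local notation "Qb" => AlgebraicClosure ℚ

/-- Existence of a character `ω : G_ℚ → kˣ` with the properties of the mod `p` cyclotomic
character. -/
def HasCyclo (p : ℕ) (k : Type) [Field k] : Prop :=
  ∃ ω : GQ →* kˣ,
    (∀ ℓ : ℕ, ℓ.Prime → ℓ ≠ p → ∀ A : ValuationSubring Qb, A.LiesOverPrime ℓ →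
      ∀ σ : GQ, A.IsFrobeniusAt σ ℓ → ((ω σ : kˣ) : k) = (ℓ : k)) ∧
    (∀ ℓ : ℕ, ℓ.Prime → ℓ ≠ p → ∀ A : ValuationSubring Qb, A.LiesOverPrime ℓ →
      ∀ σ ∈ A.inertiaSubgroupIn ℚ, ω σ = 1) ∧
    (∃ L : IntermediateField ℚ Qb, FiniteDimensional ℚ L ∧
      ∀ σ : GQ, (∀ x ∈ L, σ x = x) → ω σ = 1)

section Split

/-- A monic quadratic with coefficients in `ℤ̄` splits over `ℤ̄`. -/
lemma exists_split (a : integralClosure ℤ ℂ) (n : ℤ) :
    ∃ α β : integralClosure ℤ ℂ, α + β = a ∧ α * β = (n : integralClosure ℤ ℂ) := by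
  -- a root in `ℂ`
  obtain ⟨s, hs⟩ := IsAlgClosed.exists_eq_mul_self (discrim (1 : ℂ) (-(a : ℂ)) (n : ℂ))
  obtain ⟨z, hz⟩ := exists_quadratic_eq_zero (one_ne_zero) ⟨s, hs⟩
  have hz' : z * z - (a : ℂ) * z + (n : ℂ) = 0 := by linear_combination hz
  -- integrality
  have hint : IsIntegral (integralClosure ℤ ℂ) z := by
    refine ⟨X ^ 2 - C a * X + C (n : integralClosure ℤ ℂ), ?_, ?_⟩
    · have h1 : (X ^ 2 - C a * X + C (n : integralClosure ℤ ℂ) : (integralClosure ℤ ℂ)[X])
          = X ^ 2 - (C a * X - C (n : integralClosure ℤ ℂ)) := by ring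
      rw [h1]
      apply Polynomial.monic_X_pow_sub
      refine lt_of_le_of_lt (Polynomial.degree_sub_le _ _) ?_
      refine max_lt ?_ ?_
      · exact lt_of_le_of_lt (Polynomial.degree_C_mul_X_le a) (by norm_num)
      · exact lt_of_le_of_lt Polynomial.degree_C_le (by norm_num)
    · simp only [Polynomial.eval₂_add, Polynomial.eval₂_sub, Polynomial.eval₂_mul,
        Polynomial.eval₂_pow, Polynomial.eval₂_X, Polynomial.eval₂_C]
      have e1 : algebraMap (integralClosure ℤ ℂ) ℂ a = (a : ℂ) := rfl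
      have e2 : algebraMap (integralClosure ℤ ℂ) ℂ (n : integralClosure ℤ ℂ) = (n : ℂ) := by
        rw [map_intCast]
      rw [e1, e2]
      linear_combination hz'
  have hintZ : IsIntegral ℤ z := isIntegral_trans z hint
  refine ⟨⟨z, hintZ⟩, a - ⟨z, hintZ⟩, by ring, ?_⟩
  apply Subtype.ext
  have : (z : ℂ) * ((a : ℂ) - z) = (n : ℂ) := by linear_combination -hz'
  simpa using this

end Split

section Wire

variable (N n : ℕ) [NeZero N]

/-- The Galois representation on the `n`-torsion of `J₀(N)`. -/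
def galRep : GQ →* Module.End ℤ (Jtors N n) where
  toFun σ := galTors N n σ
  map_one' := by
    ext x
    show (1 : GQ) • (x : JZero N) = x
    rw [one_smul]
  map_mul' σ τ := by
    ext x
    show (σ * τ) • (x : JZero N) = σ • τ • (x : JZero N)
    rw [mul_smul]

lemma coe_galRep_apply (σ : GQ) (x : Jtors N n) :
    ((galRep N n σ x : Jtors N n) : JZero N) = σ • (x : JZero N) := rfl

lemma coe_heckeTors_apply (ℓ : Nat.Primes) (x : Jtors N n) :
    ((heckeTors N n ℓ x : Jtors N n) : JZero N) = heckeOperatorBar N ℓ (x : JZero N) := rfl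

lemma nsmul_coe_eq_zero (x : Jtors N n) : n • (x : JZero N) = 0 := by
  have := x.2
  rw [Submodule.mem_torsionBy_iff] at this
  rwa [natCast_zsmul] at this

end Wire

/-- **S29 at level `N ≠ 0` from the interface propositions.** -/
theorem s29At_of_inputs (N : ℕ) [NeZero N]
    (hF : FrobDensityLite) (hU : TorsionUnramified N) (hQ : TorsionFrobQuadratic N)
    (hO : TorsionOpenStab N) (hC : HeckeGaloisComm N) (hE : EigenclassModP N)
    (hω : ∀ (p : ℕ), p.Prime → ∀ (k : Type) [Field k] [CharP k p], HasCyclo p k) :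
    S29At N := by
  intro g hg p hp k _ _ φ
  classical
  obtain ⟨x, hx0, hx⟩ := hE g hg p hp k φ
  obtain ⟨ω, hωF, hωI, hωL⟩ := hω p hp k
  have hNp : N * p ≠ 0 := mul_ne_zero (NeZero.ne N) hp.ne_zero
  have hne : ∀ ℓ : ℕ, ℓ.Prime → ¬ ℓ ∣ N * p → ℓ ≠ p := by
    rintro ℓ - h rfl
    exact h (dvd_mul_left _ _)
  -- the eigenvalues
  let aZ : Nat.Primes → integralClosure ℤ ℂ := fun ℓ =>
    if h : ¬ (ℓ : ℕ) ∣ N * p then (hx ℓ h).choose else 0
  have haZ : ∀ (ℓ : Nat.Primes), ¬ (ℓ : ℕ) ∣ N * p →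
      ((aZ ℓ : integralClosure ℤ ℂ) : ℂ) = ModularFormClass.qCoeff g ℓ ∧
        (heckeTors N p ℓ).baseChange k x = φ (aZ ℓ) • x := by
    intro ℓ h
    simp only [aZ, dif_pos h]
    exact (hx ℓ h).choose_spec
  have hin : Inputs (galRep N p) (heckeTors N p) N p ω x (fun ℓ => φ (aZ ℓ)) :=
    { dense := hF
      openStab := by
        intro y
        obtain ⟨L, hL, h⟩ := hO p hp.pos (y : JZero N) (nsmul_coe_eq_zero N p y)
        exact ⟨L, hL, fun σ hσ => Subtype.ext (h σ hσ)⟩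
      comm := by
        intro ℓ σ
        ext y
        exact hC ℓ σ (y : JZero N)
      unram := by
        intro ℓ hℓ hℓN A hA σ hσ
        ext y
        exact hU p ℓ hℓ hℓN A hA σ hσ (y : JZero N) (nsmul_coe_eq_zero N p y)
      quad := by
        intro ℓ hℓ hℓN A hA σ hσ
        ext y
        have := hQ p ℓ hℓ hℓN A hA σ hσ (y : JZero N) (nsmul_coe_eq_zero N p y)
        simp only [LinearMap.add_apply, LinearMap.sub_apply, Module.End.mul_apply,
          LinearMap.smul_apply, Module.End.one_apply, LinearMap.zero_apply, Submodule.coe_add,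
          Submodule.coe_sub, Submodule.coe_smul, Submodule.coe_zero, coe_galRep_apply,
          coe_heckeTors_apply, natCast_zsmul]
        exact this
      x_ne := hx0
      eigen := fun ℓ h => (haZ ℓ h).2
      split := by
        intro ℓ _
        obtain ⟨α, β, h1, h2⟩ := exists_split (aZ ℓ) ((ℓ : ℕ) : ℤ)
        refine ⟨φ α, φ β, by rw [← map_add, h1], ?_⟩
        rw [← map_mul, h2, map_intCast, Int.cast_natCast]
      ω_frob := fun ℓ hℓ hℓN A hA σ hσ => hωF ℓ hℓ (hne ℓ hℓ hℓN) A hA σ hσ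
      ω_inertia := fun ℓ hℓ hℓN A hA σ hσ => hωI ℓ hℓ (hne ℓ hℓ hℓN) A hA σ hσ
      ω_level := hωL
      Np_ne := hNp }
  obtain ⟨ρ, hρ1, hρ2⟩ := exists_residualRep hin
  refine ⟨ρ, ?_, hρ2⟩
  intro ℓ hℓ hℓN hℓk A hA σ hσ
  have hℓp : ¬ ℓ ∣ p := by
    intro hdvd
    have : ℓ = p := (Nat.prime_dvd_prime_iff_eq hℓ hp).mp hdvd
    rw [this] at hℓk
    exact hℓk (CharP.cast_eq_zero k p)
  have hℓNp : ¬ ℓ ∣ N * p := fun hdvd => (hℓ.dvd_mul.mp hdvd).elim hℓN hℓp
  exact ⟨aZ ⟨ℓ, hℓ⟩, (haZ ⟨ℓ, hℓ⟩ hℓNp).1, hρ1 ℓ hℓ hℓNp A hA σ hσ⟩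

/-- **S29 at level `0` is vacuous.** -/
theorem s29At_zero : S29At 0 := by
  intro g _ p _ k _ _ φ
  refine ⟨{ V := Fin 2 → k
            finrank_eq := by simp
            ρ := 1
            factorsThroughFiniteLevel := ⟨⊥, inferInstance, fun _ _ => rfl⟩ }, ?_, ?_⟩
  · intro ℓ _ hℓ0
    exact absurd (dvd_zero ℓ) hℓ0
  · intro ℓ _ hℓ0
    rw [zero_mul] at hℓ0
    exact absurd (dvd_zero ℓ) hℓ0

end Fermat.Agent.S29Asm
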