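import Mathlib

set_option autoImplicit false

/-!
# S29 core, part 1: linear algebra in dimension two

* `charpoly_eq_of_not_scalar`: a non-scalar endomorphism of a 2-dimensional space killed by
  `(X - λ)(X - μ)` has characteristic polynomial `(X - λ)(X - μ)`.
* `charpoly_smul_one_of_finrank_two`: the characteristic polynomial of a scalar `r` on a
  2-dimensional space is `(X - r)^2`.
* `sum_prod_eq_of_not_scalar`: the monic quadratic annihilating a non-scalar endomorphism is
  unique.
-/

namespace Fermat.Agent.S29Core

open Polynomial Module

variable {F : Type*} [Field F] {V : Type*} [AddCommGroup V] [Module F V]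

/-- `f` is a scalar multiple of the identity. -/
def IsScalarEnd (f : Module.End F V) : Prop := ∃ c : F, f = c • (1 : Module.End F V)

theorem quad_expand (f : Module.End F V) (a b : F) :
    (f - a • (1 : Module.End F V)) * (f - b • (1 : Module.End F V)) =
      f * f - (a + b) • f + (a * b) • (1 : Module.End F V) := by
  simp only [sub_mul, mul_sub, smul_mul_assoc, mul_smul_comm, one_mul, mul_one]
  module

/-- Uniqueness of the monic quadratic killing a non-scalar endomorphism. -/
theorem sum_prod_eq_of_not_scalar [Nontrivial V] (f : Module.End F V) (hf : ¬ IsScalarEnd f)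
    {a b a' b' : F}
    (h : (f - a • (1 : Module.End F V)) * (f - b • (1 : Module.End F V)) = 0)
    (h' : (f - a' • (1 : Module.End F V)) * (f - b' • (1 : Module.End F V)) = 0) :
    a + b = a' + b' ∧ a * b = a' * b' := by
  rw [quad_expand] at h h'
  have key : ((a' + b') - (a + b)) • f = (a' * b' - a * b) • (1 : Module.End F V) := by
    have := congrArg₂ (· - ·) h h'
    simp only [sub_self] at this
    rw [sub_smul, sub_smul]
    have e : f * f - (a + b) • f + (a * b) • (1 : Module.End F V)
        - (f * f - (a' + b') • f + (a' * b') • (1 : Module.End F V))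
        = ((a' + b') • f - (a + b) • f) - ((a' * b') • (1 : Module.End F V)
          - (a * b) • (1 : Module.End F V)) := by abel
    rw [e] at this
    exact sub_eq_zero.mp this
  have hs : a + b = a' + b' := by
    by_contra hne
    have hne' : (a' + b') - (a + b) ≠ 0 := sub_ne_zero.mpr (Ne.symm hne)
    apply hf
    refine ⟨((a' + b') - (a + b))⁻¹ * (a' * b' - a * b), ?_⟩
    have := congrArg (fun g => ((a' + b') - (a + b))⁻¹ • g) key
    simp only [smul_smul, inv_mul_cancel₀ hne', one_smul] at this
    exact this
  refine ⟨hs, ?_⟩
  rw [hs, sub_self, zero_smul] at key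
  have h1 : (a' * b' - a * b) = 0 := by
    by_contra hne
    obtain ⟨v, hv⟩ := exists_ne (0 : V)
    have := congrArg (fun g : Module.End F V => g v) key
    simp only [LinearMap.zero_apply, LinearMap.smul_apply, Module.End.one_apply] at this
    exact hv ((smul_eq_zero.mp this.symm).resolve_left hne)
  exact (sub_eq_zero.mp h1).symm

theorem smul_one_quad (r c d : F) :
    (r • (1 : Module.End F V) - c • (1 : Module.End F V)) *
      (r • (1 : Module.End F V) - d • (1 : Module.End F V)) =
      ((r - c) * (r - d)) • (1 : Module.End F V) := by
  simp only [sub_mul, mul_sub, smul_mul_assoc, mul_smul_comm, one_mul]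
  module

theorem smul_quad (r a b : F) (f : Module.End F V) :
    (r • f - (r * a) • (1 : Module.End F V)) * (r • f - (r * b) • (1 : Module.End F V)) =
      (r * r) • ((f - a • (1 : Module.End F V)) * (f - b • (1 : Module.End F V))) := by
  simp only [sub_mul, mul_sub, smul_mul_assoc, mul_smul_comm, one_mul, mul_one, smul_sub,
    smul_smul]
  module

/-- Scalars are determined by the operator on a nontrivial module. -/
theorem smul_one_injective [Nontrivial V] {c c' : F}
    (h : c • (1 : Module.End F V) = c' • (1 : Module.End F V)) : c = c' := by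
  obtain ⟨v, hv⟩ := exists_ne (0 : V)
  have := congrArg (fun f : Module.End F V => f v) h
  simp only [LinearMap.smul_apply, Module.End.one_apply] at this
  exact smul_left_injective F hv this

theorem poly_identity (c d : F) :
    ((X - C c) * (X - C d) : F[X]) = X ^ 2 - C (c + d) * X + C (c * d) := by
  rw [map_add, map_mul]; ring

theorem aeval_quad (f : Module.End F V) (a b : F) :
    aeval f ((X - C a) * (X - C b) : F[X]) =
      (f - a • (1 : Module.End F V)) * (f - b • (1 : Module.End F V)) := by
  simp [Algebra.algebraMap_eq_smul_one]

variable [FiniteDimensional F V]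

/-- A non-scalar endomorphism of a 2-dimensional space killed by `(X - a)(X - b)` has
characteristic polynomial `(X - a)(X - b)`. -/
theorem charpoly_eq_of_not_scalar (hV : finrank F V = 2) (f : Module.End F V)
    (hf : ¬ IsScalarEnd f) {a b : F}
    (h : (f - a • (1 : Module.End F V)) * (f - b • (1 : Module.End F V)) = 0) :
    LinearMap.charpoly f = (X - C a) * (X - C b) := by
  have : Nontrivial V := Module.nontrivial_of_finrank_pos (R := F) (by rw [hV]; norm_num)
  set q : F[X] := (X - C a) * (X - C b) with hq
  have hqm : q.Monic := (monic_X_sub_C a).mul (monic_X_sub_C b)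
  have hqd : q.natDegree = 2 := by
    rw [hq, natDegree_mul (X_sub_C_ne_zero a) (X_sub_C_ne_zero b), natDegree_X_sub_C,
      natDegree_X_sub_C]
  have hcm : (LinearMap.charpoly f).Monic := LinearMap.charpoly_monic f
  have hcd : (LinearMap.charpoly f).natDegree = 2 := by
    rw [LinearMap.charpoly_natDegree, hV]
  by_contra hne
  -- the difference is a nonzero polynomial of degree < 2 killing f
  set d : F[X] := LinearMap.charpoly f - q with hd
  have hd0 : d ≠ 0 := sub_ne_zero.mpr hne
  have hdeg : d.degree < 2 := by
    have h1 : (LinearMap.charpoly f).degree = 2 := by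
      rw [degree_eq_natDegree hcm.ne_zero, hcd]; rfl
    have h2 : q.degree = 2 := by
      rw [degree_eq_natDegree hqm.ne_zero, hqd]; rfl
    have := degree_sub_lt_left (h1.trans h2.symm) hcm.ne_zero
      (by rw [hcm.leadingCoeff, hqm.leadingCoeff])
    rwa [h1] at this
  have hkill : aeval f d = 0 := by
    rw [hd, map_sub, LinearMap.aeval_self_charpoly, hq, aeval_quad, h, sub_zero]
  have hdn : d.natDegree < 2 := by
    rcases Nat.lt_or_ge d.natDegree 2 with h | h
    · exact h
    · exfalso
      have := degree_eq_natDegree hd0
      rw [this] at hdeg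
      have : (d.natDegree : WithBot ℕ) < (2 : ℕ) := hdeg
      exact absurd (Nat.cast_lt.mp this) (not_lt.mpr h)
  have hform : d = C (d.coeff 1) * X + C (d.coeff 0) :=
    Polynomial.eq_X_add_C_of_natDegree_le_one (Nat.lt_succ_iff.mp hdn)
  have hk2 : (d.coeff 1) • f + (d.coeff 0) • (1 : Module.End F V) = 0 := by
    rw [hform] at hkill
    simpa [Algebra.algebraMap_eq_smul_one] using hkill
  by_cases h1 : d.coeff 1 = 0
  · rw [h1, zero_smul, zero_add] at hk2
    have h0 : d.coeff 0 = 0 := by
      by_contra hne0
      obtain ⟨v, hv⟩ := exists_ne (0 : V)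
      have := congrArg (fun g : Module.End F V => g v) hk2
      simp only [LinearMap.zero_apply, LinearMap.smul_apply, Module.End.one_apply] at this
      exact hv ((smul_eq_zero.mp this).resolve_left hne0)
    apply hd0
    rw [hform, h1, h0]; simp
  · apply hf
    refine ⟨-(d.coeff 1)⁻¹ * d.coeff 0, ?_⟩
    have := congrArg (fun g => (d.coeff 1)⁻¹ • g) hk2
    simp only [smul_add, smul_smul, inv_mul_cancel₀ h1, one_smul, smul_zero] at this
    rw [neg_mul, neg_smul]
    exact eq_neg_of_add_eq_zero_left this

/-- The characteristic polynomial of a scalar endomorphism. -/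
theorem charpoly_smul_one (r : F) :
    LinearMap.charpoly (r • (1 : Module.End F V)) = (X - C r) ^ finrank F V := by
  classical
  rw [← LinearMap.charpoly_toMatrix _ (Module.finBasis F V)]
  have : LinearMap.toMatrix (Module.finBasis F V) (Module.finBasis F V)
      (r • (1 : Module.End F V)) = Matrix.diagonal fun _ => r := by
    rw [map_smul]
    have h1 : LinearMap.toMatrix (Module.finBasis F V) (Module.finBasis F V)
        (1 : Module.End F V) = 1 := LinearMap.toMatrix_one _
    rw [h1]
    ext i j
    by_cases hij : i = j
    · subst hij; simp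
    · simp [hij]
  rw [this, Matrix.charpoly_diagonal, Finset.prod_const, Finset.card_univ, Fintype.card_fin]

/-- The characteristic polynomial of a scalar on a 2-dimensional space. -/
theorem charpoly_smul_one_of_finrank_two (hV : finrank F V = 2) (r : F) :
    LinearMap.charpoly (r • (1 : Module.End F V)) = (X - C r) * (X - C r) := by
  rw [charpoly_smul_one, hV, pow_two]

end Fermat.Agent.S29Core
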