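import Fermat.Agent.S29.CoreLinAlg

set_option autoImplicit false

/-!
# S29 core, part 2: a simple module all of whose operators are split-quadratic has dimension ≤ 2

`ρ : Γ →* End_F(W)`, `ω : Γ →* Fˣ`.  `SplitQuad ρ ω` says that every `ρ g` is killed by some
`(X - a)(X - b)` with `a b = ω g`.  For such a representation which is simple and contains a
non-scalar operator, `dim W = 2`.
-/

namespace Fermat.Agent.S29Core

open Polynomial Module

variable {Γ : Type*} [Group Γ] {F : Type*} [Field F] {W : Type*} [AddCommGroup W] [Module F W]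

/-- Every operator `ρ g` is killed by a split quadratic with constant term `ω g`. -/
def SplitQuad (ρ : Γ →* Module.End F W) (ω : Γ →* Fˣ) : Prop :=
  ∀ g : Γ, ∃ a b : F, a * b = (ω g : F) ∧
    (ρ g - a • (1 : Module.End F W)) * (ρ g - b • (1 : Module.End F W)) = 0

theorem pow_quad_zero (f : Module.End F W) (a b : F)
    (h : (f - a • (1 : Module.End F W)) * (f - b • (1 : Module.End F W)) = 0) (m : ℕ) :
    (f ^ m - (a ^ m) • (1 : Module.End F W)) * (f ^ m - (b ^ m) • (1 : Module.End F W)) = 0 := by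
  have h1 : ((X - C a) * (X - C b) : F[X]) ∣ (X ^ m - C (a ^ m)) * (X ^ m - C (b ^ m)) := by
    apply mul_dvd_mul
    · rw [C_pow]; exact sub_dvd_pow_sub_pow X (C a) m
    · rw [C_pow]; exact sub_dvd_pow_sub_pow X (C b) m
  obtain ⟨q, hq⟩ := h1
  have h2 := congrArg (aeval f) hq
  rw [map_mul, map_mul (aeval f) ((X - C a) * (X - C b)), aeval_quad, h, zero_mul] at h2
  simpa [Algebra.algebraMap_eq_smul_one, _root_.smul_pow] using h2

variable (ρ : Γ →* Module.End F W) (ω : Γ →* Fˣ)

theorem rho_mul_inv (g : Γ) : ρ g * ρ g⁻¹ = 1 := by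
  rw [← map_mul, mul_inv_cancel, map_one]

theorem rho_inv_mul (g : Γ) : ρ g⁻¹ * ρ g = 1 := by
  rw [← map_mul, inv_mul_cancel, map_one]

/-- From a split quadratic relation: `ρ g + ω g • ρ g⁻¹ = (a + b) • 1`. -/
theorem trace_rel_of_quad (g : Γ) {a b : F} (hab : a * b = (ω g : F))
    (h : (ρ g - a • (1 : Module.End F W)) * (ρ g - b • (1 : Module.End F W)) = 0) :
    ρ g + (ω g : F) • ρ g⁻¹ = (a + b) • (1 : Module.End F W) := by
  rw [quad_expand] at h
  have h2 := congrArg (fun x => x * ρ g⁻¹) h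
  simp only [add_mul, sub_mul, zero_mul, smul_mul_assoc, one_mul, mul_assoc, rho_mul_inv,
    mul_one] at h2
  rw [← hab]
  have : ρ g + (a * b) • ρ g⁻¹ - (a + b) • (1 : Module.End F W) = 0 := by
    rw [← h2]; abel
  exact sub_eq_zero.mp this

variable {ρ ω}

/-- The chosen "trace" of `g`. -/
noncomputable def tr (hQ : SplitQuad ρ ω) (g : Γ) : F :=
  (hQ g).choose + (hQ g).choose_spec.choose

theorem trace_rel (hQ : SplitQuad ρ ω) (g : Γ) :
    ρ g + (ω g : F) • ρ g⁻¹ = tr hQ g • (1 : Module.End F W) :=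
  trace_rel_of_quad ρ ω g (hQ g).choose_spec.choose_spec.1 (hQ g).choose_spec.choose_spec.2

theorem inv_rel (hQ : SplitQuad ρ ω) (g : Γ) :
    (ω g : F) • ρ g⁻¹ = tr hQ g • (1 : Module.End F W) - ρ g :=
  eq_sub_of_add_eq' (trace_rel hQ g)

/-- The anticommutator relation. -/
theorem anticomm_rel (hQ : SplitQuad ρ ω) (g h : Γ) :
    ρ g * ρ h + ρ h * ρ g =
      tr hQ h • ρ g + tr hQ g • ρ h + (tr hQ (g * h) - tr hQ g * tr hQ h) •
        (1 : Module.End F W) := by
  have h1 : (ω (g * h) : F) • ρ (g * h)⁻¹ =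
      ((ω h : F) • ρ h⁻¹) * ((ω g : F) • ρ g⁻¹) := by
    rw [mul_inv_rev, map_mul, map_mul, Units.val_mul, smul_mul_smul_comm, mul_comm (ω h : F)]
  have h2 := trace_rel hQ (g * h)
  rw [h1, inv_rel hQ g, inv_rel hQ h, map_mul] at h2
  have h3 : ρ g * ρ h + (tr hQ h • (1 : Module.End F W) - ρ h) *
      (tr hQ g • (1 : Module.End F W) - ρ g) =
      ρ g * ρ h + ρ h * ρ g - tr hQ h • ρ g - tr hQ g • ρ h +
        (tr hQ g * tr hQ h) • (1 : Module.End F W) := by
    simp only [sub_mul, mul_sub, smul_mul_assoc, mul_smul_comm, one_mul, mul_one]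
    module
  rw [h3] at h2
  have h4 : ρ g * ρ h + ρ h * ρ g = tr hQ (g * h) • (1 : Module.End F W) + tr hQ h • ρ g +
      tr hQ g • ρ h - (tr hQ g * tr hQ h) • (1 : Module.End F W) := by
    rw [← h2]; abel
  rw [h4]
  module

/-- A non-scalar `ρ g` has `tr g = a + b` for any split quadratic `(X - a)(X - b)` killing it. -/
theorem tr_eq_of_not_scalar [Nontrivial W] (hQ : SplitQuad ρ ω) (g : Γ)
    (hg : ¬ IsScalarEnd (ρ g)) {a b : F}
    (h : (ρ g - a • (1 : Module.End F W)) * (ρ g - b • (1 : Module.End F W)) = 0) :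
    tr hQ g = a + b :=
  (sum_prod_eq_of_not_scalar (ρ g) hg (hQ g).choose_spec.choose_spec.2 h).1

/-- Key claim: if `v ≠ 0` is an eigenvector of `ρ g₀` for the root `c` of the split quadratic
`(X - c)(X - d)` with `c + d = tr g₀`, and the orbit of `v` spans `W`, then the range of
`ρ g₀ - d` lies in the line through `v`. -/
theorem range_le_span (hQ : SplitQuad ρ ω)
    (horbit : ∀ v : W, v ≠ 0 → Submodule.span F (Set.range fun h : Γ => ρ h v) = ⊤)
    (g₀ : Γ) {c d : F} (hcd : tr hQ g₀ = c + d) {v : W} (hv : v ≠ 0) (hev : ρ g₀ v = c • v) :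
    LinearMap.range (ρ g₀ - d • (1 : Module.End F W)) ≤ Submodule.span F {v} := by
  have hU : Submodule.span F (Set.range fun h : Γ => ρ h v) ≤
      (Submodule.span F {v}).comap (ρ g₀ - d • (1 : Module.End F W)) := by
    rw [Submodule.span_le]
    rintro _ ⟨h, rfl⟩
    show (ρ g₀ - d • (1 : Module.End F W)) (ρ h v) ∈ Submodule.span F {v}
    have key := congrArg (fun f : Module.End F W => f v) (anticomm_rel hQ g₀ h)
    simp only [LinearMap.add_apply, Module.End.mul_apply, LinearMap.smul_apply,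
      Module.End.one_apply, hev, map_smul, hcd] at key
    have e : (ρ g₀ - d • (1 : Module.End F W)) (ρ h v) =
        (tr hQ h * c + (tr hQ (g₀ * h) - (c + d) * tr hQ h)) • v := by
      simp only [LinearMap.sub_apply, LinearMap.smul_apply, Module.End.one_apply]
      have : ρ g₀ (ρ h v) = tr hQ h • c • v + (c + d) • ρ h v +
          (tr hQ (g₀ * h) - (c + d) * tr hQ h) • v - c • ρ h v :=
        eq_sub_of_add_eq key
      rw [this]
      module
    rw [e]
    exact Submodule.smul_mem _ _ (Submodule.mem_span_singleton_self v)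
  rw [horbit v hv] at hU
  rintro _ ⟨w, rfl⟩
  exact hU (Submodule.mem_top (x := w))

variable [FiniteDimensional F W]

/-- A simple split-quadratic representation containing a non-scalar operator has dimension 2. -/
theorem finrank_eq_two_of_simple [Nontrivial W] (hQ : SplitQuad ρ ω)
    (hsimple : ∀ U : Submodule F W, (∀ g, ∀ v ∈ U, ρ g v ∈ U) → U = ⊥ ∨ U = ⊤)
    (g₀ : Γ) (hg₀ : ¬ IsScalarEnd (ρ g₀)) : finrank F W = 2 := by
  -- orbits span
  have horbit : ∀ v : W, v ≠ 0 → Submodule.span F (Set.range fun h : Γ => ρ h v) = ⊤ := by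
    intro v hv
    refine (hsimple _ ?_).resolve_left ?_
    · intro g w hw
      refine Submodule.span_induction (p := fun w _ => ρ g w ∈
        Submodule.span F (Set.range fun h : Γ => ρ h v)) ?_ ?_ ?_ ?_ hw
      · rintro _ ⟨h, rfl⟩
        refine Submodule.subset_span ⟨g * h, ?_⟩
        simp only [map_mul, Module.End.mul_apply]
      · simp
      · intro x y _ _ hx hy
        rw [map_add]; exact Submodule.add_mem _ hx hy
      · intro a x _ hx
        rw [map_smul]; exact Submodule.smul_mem _ _ hx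
    · intro hbot
      have : v ∈ Submodule.span F (Set.range fun h : Γ => ρ h v) :=
        Submodule.subset_span ⟨1, by simp⟩
      rw [hbot] at this
      exact hv ((Submodule.mem_bot F).mp this)
  obtain ⟨a, b, hab, hq⟩ := hQ g₀
  have hq' : (ρ g₀ - b • (1 : Module.End F W)) * (ρ g₀ - a • (1 : Module.End F W)) = 0 := by
    rw [quad_expand] at hq ⊢
    rw [add_comm b a, mul_comm b a]; exact hq
  have htr : tr hQ g₀ = a + b := tr_eq_of_not_scalar hQ g₀ hg₀ hq
  have htr' : tr hQ g₀ = b + a := by rw [htr, add_comm]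
  -- X - b ≠ 0, X - a ≠ 0
  have hb0 : ρ g₀ - b • (1 : Module.End F W) ≠ 0 := fun h => hg₀ ⟨b, sub_eq_zero.mp h⟩
  have ha0 : ρ g₀ - a • (1 : Module.End F W) ≠ 0 := fun h => hg₀ ⟨a, sub_eq_zero.mp h⟩
  -- v := (X - b) w₀ ≠ 0 is an a-eigenvector
  obtain ⟨w₀, hw₀⟩ : ∃ w, (ρ g₀ - b • (1 : Module.End F W)) w ≠ 0 := by
    by_contra hcon
    push Not at hcon
    exact hb0 (LinearMap.ext hcon)
  set v := (ρ g₀ - b • (1 : Module.End F W)) w₀ with hvdef
  have hva : ρ g₀ v = a • v := by
    have := congrArg (fun f : Module.End F W => f w₀) hq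
    simp only [Module.End.mul_apply, LinearMap.zero_apply] at this
    have h2 : (ρ g₀ - a • (1 : Module.End F W)) v = 0 := this
    simp only [LinearMap.sub_apply, LinearMap.smul_apply, Module.End.one_apply] at h2
    exact sub_eq_zero.mp h2
  obtain ⟨w₁, hw₁⟩ : ∃ w, (ρ g₀ - a • (1 : Module.End F W)) w ≠ 0 := by
    by_contra hcon
    push Not at hcon
    exact ha0 (LinearMap.ext hcon)
  set v' := (ρ g₀ - a • (1 : Module.End F W)) w₁ with hv'def
  have hv'b : ρ g₀ v' = b • v' := by
    have := congrArg (fun f : Module.End F W => f w₁) hq'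
    simp only [Module.End.mul_apply, LinearMap.zero_apply] at this
    have h2 : (ρ g₀ - b • (1 : Module.End F W)) v' = 0 := this
    simp only [LinearMap.sub_apply, LinearMap.smul_apply, Module.End.one_apply] at h2
    exact sub_eq_zero.mp h2
  -- range (X - b) = span {v}
  have hr1 : LinearMap.range (ρ g₀ - b • (1 : Module.End F W)) = Submodule.span F {v} := by
    apply le_antisymm (range_le_span hQ horbit g₀ htr hw₀ hva)
    rw [Submodule.span_singleton_le_iff_mem]
    exact ⟨w₀, rfl⟩
  -- ker (X - b) = span {v'}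
  have hk1 : LinearMap.ker (ρ g₀ - b • (1 : Module.End F W)) = Submodule.span F {v'} := by
    apply le_antisymm
    · intro u hu
      by_cases hu0 : u = 0
      · rw [hu0]; exact Submodule.zero_mem _
      have hub : ρ g₀ u = b • u := by
        have h2 : (ρ g₀ - b • (1 : Module.End F W)) u = 0 := hu
        simp only [LinearMap.sub_apply, LinearMap.smul_apply, Module.End.one_apply] at h2
        exact sub_eq_zero.mp h2
      have hle := range_le_span hQ horbit g₀ htr' hu0 hub
      have hv'mem : v' ∈ Submodule.span F {u} := hle ⟨w₁, rfl⟩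
      obtain ⟨s, hs⟩ := Submodule.mem_span_singleton.mp hv'mem
      have hs0 : s ≠ 0 := by
        rintro rfl
        rw [zero_smul] at hs
        exact hw₁ hs.symm
      rw [Submodule.mem_span_singleton]
      refine ⟨s⁻¹, ?_⟩
      rw [← hs, smul_smul, inv_mul_cancel₀ hs0, one_smul]
    · rw [Submodule.span_singleton_le_iff_mem]
      show (ρ g₀ - b • (1 : Module.End F W)) v' = 0
      simp only [LinearMap.sub_apply, LinearMap.smul_apply, Module.End.one_apply, hv'b, sub_self]
  have hrn := LinearMap.finrank_range_add_finrank_ker (ρ g₀ - b • (1 : Module.End F W))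
  rw [hr1, hk1, finrank_span_singleton hw₀, finrank_span_singleton hw₁] at hrn
  exact hrn.symm

end Fermat.Agent.S29Core
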