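import Mathlib

set_option autoImplicit false

/-!
# S29 endgame, part (A1): the quadratic relation and the pair relation

If every element `g` of a group acts on `W` with `g² - t(g) g + ω(g) = 0` for a multiplicative
`ω`, then `gh + hg = (t(gh) - t(g)t(h)) + t(h) g + t(g) h`.
-/

namespace Fermat.Agent.S29

variable {K : Type*} [Field K] {A : Type*} [Ring A] [Algebra K A]

/-- `x` satisfies `x² - t x + w = 0`. -/
def QuadAt (x : A) (t w : K) : Prop := x * x - t • x + w • (1 : A) = 0

theorem QuadAt.sq_eq {x : A} {t w : K} (h : QuadAt x t w) : x * x = t • x - w • (1 : A) := by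
  have h' : x * x - t • x + w • (1 : A) = 0 := h
  have : x * x = t • x - w • (1 : A) := by
    rw [eq_sub_iff_add_eq, ← sub_eq_zero]
    rw [← h']
    abel
  exact this

/-- If `x` is a unit with `x² - t x + w = 0`, then `w x⁻¹ = t - x`. -/
theorem QuadAt.smul_inv (u : Aˣ) {t w : K} (h : QuadAt (u : A) t w) :
    w • ((u⁻¹ : Aˣ) : A) = t • (1 : A) - (u : A) := by
  have h1 := h.sq_eq
  have h2 : ((u⁻¹ : Aˣ) : A) * ((u : A) * (u : A)) = (u : A) := by
    rw [← mul_assoc, Units.inv_mul, one_mul]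
  rw [h1, mul_sub, mul_smul_comm, Units.inv_mul, mul_smul_comm, mul_one] at h2
  rw [← h2]
  abel

/-- The pair relation. -/
theorem pair_rel (ux uy : Aˣ) {tx ty txy wx wy : K}
    (hx : QuadAt (ux : A) tx wx) (hy : QuadAt (uy : A) ty wy)
    (hxy : QuadAt ((ux : A) * (uy : A)) txy (wx * wy)) :
    (ux : A) * uy + uy * ux = (txy - tx * ty) • (1 : A) + ty • (ux : A) + tx • (uy : A) := by
  have h1 := hx.smul_inv ux
  have h2 := hy.smul_inv uy
  have hxy' : QuadAt ((ux * uy : Aˣ) : A) txy (wx * wy) := by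
    simpa using hxy
  have h3 := hxy'.smul_inv (ux * uy)
  have h4 : (wx * wy) • (((ux * uy)⁻¹ : Aˣ) : A)
      = (wy • ((uy⁻¹ : Aˣ) : A)) * (wx • ((ux⁻¹ : Aˣ) : A)) := by
    rw [mul_inv_rev, Units.val_mul, smul_mul_smul_comm, mul_comm wy wx]
  rw [h4, h1, h2] at h3
  have h5 : (ty • (1 : A) - (uy : A)) * (tx • (1 : A) - (ux : A))
      = (ty * tx) • (1 : A) - ty • (ux : A) - tx • (uy : A) + (uy : A) * ux := by
    simp only [sub_mul, mul_sub, smul_mul_assoc, mul_smul_comm, one_mul, mul_one, smul_smul,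
      smul_sub]
    rw [mul_comm tx ty]
    abel
  rw [h5, Units.val_mul] at h3
  have h6 : (ux : A) * uy + uy * ux
      = txy • (1 : A) - ((ty * tx) • (1 : A) - ty • (ux : A) - tx • (uy : A)) := by
    have h7 := h3
    rw [eq_sub_iff_add_eq] at h7
    rw [← h7]; abel
  rw [h6, sub_smul, mul_comm tx ty]
  abel

end Fermat.Agent.S29
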