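import Fermat.Agent.S29.QuadRel

set_option autoImplicit false

/-!
# S29 endgame, part (A2): minimal stable subspaces have dimension at most two
-/

namespace Fermat.Agent.S29

open Module

variable {G : Type*} [Group G] {K : Type*} [Field K] {W : Type*} [AddCommGroup W] [Module K W]

/-- A subspace stable under the whole group. -/
def Stable (ρ : G →* Module.End K W) (U : Submodule K W) : Prop :=
  ∀ g, ∀ x ∈ U, ρ g x ∈ U

theorem exists_minimal_stable [FiniteDimensional K W] [Nontrivial W] (ρ : G →* Module.End K W) :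
    ∃ U : Submodule K W, U ≠ ⊥ ∧ Stable ρ U ∧
      ∀ U' : Submodule K W, Stable ρ U' → U' ≤ U → U' ≠ ⊥ → U' = U := by
  classical
  let P : ℕ → Prop := fun n => ∃ U : Submodule K W, U ≠ ⊥ ∧ Stable ρ U ∧ finrank K U = n
  have hP : ∃ n, P n :=
    ⟨finrank K (⊤ : Submodule K W), ⊤, top_ne_bot, fun _ _ _ => trivial, rfl⟩
  obtain ⟨U, hU0, hUs, hUn⟩ := Nat.find_spec hP
  refine ⟨U, hU0, hUs, fun U' hs hle h0 => ?_⟩
  have h1 : Nat.find hP ≤ finrank K U' := Nat.find_min' hP ⟨U', h0, hs, rfl⟩
  have h2 : finrank K U' ≤ finrank K U := Submodule.finrank_mono hle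
  exact Submodule.eq_of_le_of_finrank_eq hle (by omega)

/-- In a minimal stable subspace, the orbit of any nonzero vector spans. -/
theorem span_orbit_eq (ρ : G →* Module.End K W) {U : Submodule K W} (hUs : Stable ρ U)
    (hmin : ∀ U' : Submodule K W, Stable ρ U' → U' ≤ U → U' ≠ ⊥ → U' = U)
    {v : W} (hvU : v ∈ U) (hv : v ≠ 0) :
    Submodule.span K (Set.range fun h : G => ρ h v) = U := by
  apply hmin
  · intro g x hx
    induction hx using Submodule.span_induction with
    | mem x hx =>
      obtain ⟨h, rfl⟩ := hx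
      apply Submodule.subset_span
      exact ⟨g * h, by simp [map_mul]⟩
    | zero => simp
    | add x y _ _ hx hy => rw [map_add]; exact Submodule.add_mem _ hx hy
    | smul c x _ hx => rw [map_smul]; exact Submodule.smul_mem _ c hx
  · rw [Submodule.span_le]
    rintro _ ⟨h, rfl⟩
    exact hUs h v hvU
  · intro h0
    have : v ∈ Submodule.span K (Set.range fun h : G => ρ h v) :=
      Submodule.subset_span ⟨1, by simp⟩
    rw [h0, Submodule.mem_bot] at this
    exact hv this

section Pair

variable (ρ : G →* Module.End K W) (ω : G →* K) (t : G → K)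

/-- the unit of `End` attached to a group element -/
noncomputable def endUnit (g : G) : (Module.End K W)ˣ :=
  ⟨ρ g, ρ g⁻¹, by rw [← map_mul, mul_inv_cancel, map_one],
    by rw [← map_mul, inv_mul_cancel, map_one]⟩

theorem pair_rel_rep (ht : ∀ g, QuadAt (ρ g) (t g) (ω g)) (g h : G) :
    ρ g * ρ h + ρ h * ρ g
      = (t (g * h) - t g * t h) • (1 : Module.End K W) + t h • ρ g + t g • ρ h := by
  have hgh : QuadAt ((endUnit ρ g : Module.End K W) * (endUnit ρ h : Module.End K W))
      (t (g * h)) (ω g * ω h) := by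
    have := ht (g * h)
    rw [map_mul, map_mul] at this
    exact this
  exact pair_rel (endUnit ρ g) (endUnit ρ h) (ht g) (ht h) hgh

/-- Claim 1: if `v` is an eigenvector of `g` with eigenvalue `lam`, then `g - (t g - lam)` maps
the orbit of `v` into the line of `v`. -/
theorem claim_one (ht : ∀ g, QuadAt (ρ g) (t g) (ω g)) (g h : G) {v : W} {lam : K}
    (hv : ρ g v = lam • v) :
    ρ g (ρ h v) - (t g - lam) • ρ h v = ((t (g * h) - t g * t h) + t h * lam) • v := by
  have hp := congrArg (fun f : Module.End K W => f v) (pair_rel_rep ρ ω t ht g h)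
  simp only [LinearMap.add_apply, Module.End.mul_apply, LinearMap.smul_apply,
    Module.End.one_apply, hv, map_smul] at hp
  have : ρ g (ρ h v) = (t (g * h) - t g * t h) • v + t h • lam • v + t g • ρ h v
      - lam • ρ h v := by
    rw [← hp]; abel
  rw [this]
  module

theorem claim_one_span (ht : ∀ g, QuadAt (ρ g) (t g) (ω g)) {U : Submodule K W}
    (hUs : Stable ρ U)
    (hmin : ∀ U' : Submodule K W, Stable ρ U' → U' ≤ U → U' ≠ ⊥ → U' = U)
    (g : G) {v : W} (hvU : v ∈ U) (hv0 : v ≠ 0) {lam : K} (hv : ρ g v = lam • v)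
    {u : W} (hu : u ∈ U) :
    ρ g u - (t g - lam) • u ∈ Submodule.span K {v} := by
  have hspan := span_orbit_eq ρ hUs hmin hvU hv0
  let f : W →ₗ[K] W := ρ g - (t g - lam) • (1 : Module.End K W)
  have hle : Submodule.span K (Set.range fun h : G => ρ h v)
      ≤ (Submodule.span K {v}).comap f := by
    rw [Submodule.span_le]
    rintro _ ⟨h, rfl⟩
    show f (ρ h v) ∈ Submodule.span K {v}
    have : f (ρ h v) = ρ g (ρ h v) - (t g - lam) • ρ h v := by
      simp [f]
    rw [this, claim_one ρ ω t ht g h hv]
    exact Submodule.smul_mem _ _ (Submodule.mem_span_singleton_self v)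
  rw [hspan] at hle
  have := hle hu
  simpa [f] using this

end Pair

end Fermat.Agent.S29
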