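import Fermat.Agent.S29.TwoDimA

set_option autoImplicit false

/-!
# S29 endgame, part (A3): dimension bound and 2x2 matrix lemmas
-/

namespace Fermat.Agent.S29

open Module Polynomial

section Dim

variable {G : Type*} [Group G] {K : Type*} [Field K] {W : Type*} [AddCommGroup W] [Module K W]
variable (ρ : G →* Module.End K W) (ω : G →* K) (t : G → K)

theorem finrank_le_two [FiniteDimensional K W] (ht : ∀ g, QuadAt (ρ g) (t g) (ω g))
    {U : Submodule K W} (hUs : Stable ρ U)
    (hmin : ∀ U' : Submodule K W, Stable ρ U' → U' ≤ U → U' ≠ ⊥ → U' = U)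
    (g : G) {v : W} (hvU : v ∈ U) (hv0 : v ≠ 0) {lam : K} (hv : ρ g v = lam • v)
    (hns : ∃ z ∈ U, ρ g z ≠ lam • z) :
    finrank K U ≤ 2 := by
  classical
  set μ : K := t g - lam with hμ
  let f : U →ₗ[K] W := (ρ g - μ • (1 : Module.End K W)).domRestrict U
  have hf : ∀ u : U, f u = ρ g (u : W) - μ • (u : W) := fun u => by simp [f]
  have hrange : LinearMap.range f ≤ Submodule.span K {v} := by
    rintro _ ⟨u, rfl⟩
    rw [hf]
    exact claim_one_span ρ ω t ht hUs hmin g hvU hv0 hv u.2
  have h1 : finrank K (LinearMap.range f) ≤ 1 :=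
    (Submodule.finrank_mono hrange).trans (finrank_span_singleton hv0).le
  obtain ⟨z, hzU, hz⟩ := hns
  have hz' : ρ g z - lam • z ≠ 0 := sub_ne_zero.mpr hz
  have hker : ∀ x : LinearMap.ker f, x ≠ 0 → ∃ a : K, a ≠ 0 ∧ ρ g z - lam • z = a • ((x : U) : W) := by
    intro x hx
    have hxk : f x = 0 := x.2
    rw [hf] at hxk
    have hxe : ρ g ((x : U) : W) = μ • ((x : U) : W) := sub_eq_zero.mp hxk
    have hx0 : ((x : U) : W) ≠ 0 := by
      intro h
      apply hx
      apply Subtype.ext
      apply Subtype.ext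
      simpa using h
    have := claim_one_span ρ ω t ht hUs hmin g (x : U).2 hx0 hxe hzU
    have hlam : t g - μ = lam := by rw [hμ]; ring
    rw [hlam, Submodule.mem_span_singleton] at this
    obtain ⟨a, ha⟩ := this
    refine ⟨a, ?_, ha.symm⟩
    rintro rfl
    rw [zero_smul] at ha
    exact hz' ha.symm
  have h2 : finrank K (LinearMap.ker f) ≤ 1 := by
    by_cases hex : ∃ x : LinearMap.ker f, x ≠ 0
    · obtain ⟨x, hx⟩ := hex
      obtain ⟨a, ha0, ha⟩ := hker x hx
      refine finrank_le_one x fun y => ?_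
      by_cases hy : y = 0
      · exact ⟨0, by rw [hy, zero_smul]⟩
      · obtain ⟨b, hb0, hb⟩ := hker y hy
        refine ⟨b⁻¹ * a, ?_⟩
        apply Subtype.ext
        apply Subtype.ext
        have : a • ((x : U) : W) = b • ((y : U) : W) := by rw [← ha, hb]
        show ((b⁻¹ * a) • ((x : U) : W)) = ((y : U) : W)
        rw [mul_smul, this, smul_smul, inv_mul_cancel₀ hb0, one_smul]
    · push Not at hex
      refine finrank_le_one (0 : LinearMap.ker f) fun y => ⟨0, ?_⟩
      rw [hex y, smul_zero]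
  have h3 := LinearMap.finrank_range_add_finrank_ker f
  omega

end Dim

section Mat

variable {K : Type*} [Field K]

theorem mat_cayley (M : Matrix (Fin 2) (Fin 2) K) :
    M * M - M.trace • M + M.det • (1 : Matrix (Fin 2) (Fin 2) K) = 0 := by
  have h := Matrix.aeval_self_charpoly M
  rw [Matrix.charpoly_fin_two] at h
  simpa [pow_two, Algebra.smul_def, sub_eq_add_neg] using h

theorem mat_one_ne_zero : (1 : Matrix (Fin 2) (Fin 2) K) ≠ 0 := one_ne_zero

theorem trace_det_of_quad {M : Matrix (Fin 2) (Fin 2) K} {a w : K}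
    (h : QuadAt M a w) (hns : ∀ c : K, M ≠ c • (1 : Matrix (Fin 2) (Fin 2) K)) :
    M.trace = a ∧ M.det = w := by
  have hc := mat_cayley M
  have h' : M * M - a • M + w • (1 : Matrix (Fin 2) (Fin 2) K) = 0 := h
  have hsub : (M.trace - a) • M = (M.det - w) • (1 : Matrix (Fin 2) (Fin 2) K) := by
    have : (M * M - a • M + w • (1 : Matrix (Fin 2) (Fin 2) K))
        - (M * M - M.trace • M + M.det • (1 : Matrix (Fin 2) (Fin 2) K)) = 0 := by
      rw [h', hc, sub_zero]
    rw [sub_smul, sub_smul, sub_eq_sub_iff_add_eq_add, ← sub_eq_zero, ← this]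
    abel
  by_cases hta : M.trace = a
  · refine ⟨hta, ?_⟩
    rw [hta, sub_self, zero_smul] at hsub
    by_contra hd
    have : (M.det - w) • (1 : Matrix (Fin 2) (Fin 2) K) ≠ 0 :=
      smul_ne_zero (sub_ne_zero.mpr hd) one_ne_zero
    exact this hsub.symm
  · exfalso
    have hne : M.trace - a ≠ 0 := sub_ne_zero.mpr hta
    apply hns ((M.trace - a)⁻¹ * (M.det - w))
    rw [mul_smul, ← hsub, smul_smul, inv_mul_cancel₀ hne, one_smul]

theorem charpoly_of_trace_det {M : Matrix (Fin 2) (Fin 2) K} {a w : K}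
    (h : M.trace = a ∧ M.det = w) : M.charpoly = X ^ 2 - C a * X + C w := by
  rw [Matrix.charpoly_fin_two, h.1, h.2]

theorem trace_det_scalar {M : Matrix (Fin 2) (Fin 2) K} {a w r : K}
    (h : QuadAt M a w) (hM : M = r • (1 : Matrix (Fin 2) (Fin 2) K)) (hr : r * r = w)
    (hw : w ≠ 0) : M.trace = a ∧ M.det = w := by
  have hr0 : r ≠ 0 := by
    rintro rfl
    rw [mul_zero] at hr
    exact hw hr.symm
  have h' : M * M - a • M + w • (1 : Matrix (Fin 2) (Fin 2) K) = 0 := h
  rw [hM] at h'
  have h2 : (r * r - a * r + w) • (1 : Matrix (Fin 2) (Fin 2) K) = 0 := by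
    rw [← h']
    simp only [mul_smul_comm, mul_one, smul_smul, add_smul, sub_smul]
  have h3 : r * r - a * r + w = 0 := by
    by_contra hne
    exact smul_ne_zero hne one_ne_zero h2
  have ha : a = 2 * r := by
    have : r * (2 * r - a) = 0 := by
      have : r * (2 * r - a) = (r * r - a * r + w) + (r * r - w) := by ring
      rw [this, h3, hr]; ring
    rcases mul_eq_zero.mp this with h | h
    · exact absurd h hr0
    · exact (sub_eq_zero.mp h).symm
  constructor
  · rw [hM, Matrix.trace_smul, Matrix.trace_one, ha, Fintype.card_fin, smul_eq_mul]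
    push_cast
    ring
  · rw [hM, Matrix.det_smul, Matrix.det_one, ← hr]
    simp [pow_two]

end Mat

end Fermat.Agent.S29
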