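import Fermat.Agent.S29.TwoDimB

set_option autoImplicit false

/-!
# S29 endgame, part (A4): the two-dimensional representation

`exists_matrix_rep`: if every `g` satisfies `g² - t g + ω(g) = 0` on `W ≠ 0` (finite-dimensional
over an algebraically closed field, `ω` multiplicative), there is `M : G →* GL₂`-valued (as
matrices) with `charpoly (M g) = X² - a X + ω g` for EVERY `a` with `g² - a g + ω g = 0` on `W`.
-/

namespace Fermat.Agent.S29

open Module Polynomial

section Transport

variable {K : Type*} [Field K]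

theorem QuadAt.map_algHom {A B : Type*} [Ring A] [Ring B] [Algebra K A] [Algebra K B]
    (f : A →ₐ[K] B) {x : A} {t w : K} (h : QuadAt x t w) : QuadAt (f x) t w := by
  have h' : x * x - t • x + w • (1 : A) = 0 := h
  have := congrArg f h'
  simpa [QuadAt, map_sub, map_add, map_mul, map_smul] using this

theorem omega_ne_zero {G : Type*} [Group G] (ω : G →* K) (g : G) : ω g ≠ 0 := by
  intro h
  have : ω g * ω g⁻¹ = 1 := by rw [← map_mul, mul_inv_cancel, map_one]
  rw [h, zero_mul] at this
  exact zero_ne_one this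

end Transport

section Restrict

variable {G : Type*} [Group G] {K : Type*} [Field K] {W : Type*} [AddCommGroup W] [Module K W]

/-- restriction of a representation to a stable subspace -/
noncomputable def restrictRep (ρ : G →* Module.End K W) {U : Submodule K W} (hUs : Stable ρ U) :
    G →* Module.End K U where
  toFun g := (ρ g).restrict (hUs g)
  map_one' := by
    ext u
    simp
  map_mul' g h := by
    ext u
    simp [map_mul]

theorem restrictRep_apply (ρ : G →* Module.End K W) {U : Submodule K W} (hUs : Stable ρ U)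
    (g : G) (u : U) : ((restrictRep ρ hUs g) u : W) = ρ g u := rfl

theorem quadAt_restrictRep (ρ : G →* Module.End K W) {U : Submodule K W} (hUs : Stable ρ U)
    {g : G} {a w : K} (h : QuadAt (ρ g) a w) : QuadAt (restrictRep ρ hUs g) a w := by
  have h' : ρ g * ρ g - a • ρ g + w • (1 : Module.End K W) = 0 := h
  show restrictRep ρ hUs g * restrictRep ρ hUs g - a • restrictRep ρ hUs g
      + w • (1 : Module.End K U) = 0
  ext u
  have := congrArg (fun f : Module.End K W => f (u : W)) h'
  simpa [restrictRep_apply] using this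

theorem restrictRep_eq_one (ρ : G →* Module.End K W) {U : Submodule K W} (hUs : Stable ρ U)
    {g : G} (h : ρ g = 1) : restrictRep ρ hUs g = 1 := by
  ext u
  simp [restrictRep_apply, h]

end Restrict

section NS

variable {G : Type*} [Group G] {K : Type*} [Field K] {W : Type*} [AddCommGroup W] [Module K W]
variable (ρ : G →* Module.End K W) (ω : G →* K) (t : G → K)

/-- the matrix representation attached to a basis of a stable subspace -/
noncomputable def matRep {U : Submodule K W} (hUs : Stable ρ U) (b : Basis (Fin 2) K U) :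
    G →* Matrix (Fin 2) (Fin 2) K :=
  (MonoidHomClass.toMonoidHom (LinearMap.toMatrixAlgEquiv b)).comp (restrictRep ρ hUs)

theorem matRep_apply {U : Submodule K W} (hUs : Stable ρ U) (b : Basis (Fin 2) K U) (g : G) :
    matRep ρ hUs b g = LinearMap.toMatrixAlgEquiv b (restrictRep ρ hUs g) := rfl

theorem matRep_quad {U : Submodule K W} (hUs : Stable ρ U) (b : Basis (Fin 2) K U) {g : G}
    {a w : K} (h : QuadAt (ρ g) a w) : QuadAt (matRep ρ hUs b g) a w := by
  rw [matRep_apply]
  exact (quadAt_restrictRep ρ hUs h).map_algHom (LinearMap.toMatrixAlgEquiv b).toAlgHom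

theorem matRep_eq_smul_one {U : Submodule K W} (hUs : Stable ρ U) (b : Basis (Fin 2) K U) {g : G}
    {c : K} (h : matRep ρ hUs b g = c • (1 : Matrix (Fin 2) (Fin 2) K)) :
    ∀ u ∈ U, ρ g u = c • u := by
  intro u hu
  rw [matRep_apply] at h
  have h1 : restrictRep ρ hUs g = c • (1 : Module.End K U) := by
    apply (LinearMap.toMatrixAlgEquiv b).injective
    rw [h, map_smul, map_one]
  have := congrArg (fun f : Module.End K U => ((f ⟨u, hu⟩ : U) : W)) h1
  simpa [restrictRep_apply] using this

theorem finrank_eq_two [FiniteDimensional K W] [IsAlgClosed K]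
    (ht : ∀ g, QuadAt (ρ g) (t g) (ω g))
    {U : Submodule K W} (hU0 : U ≠ ⊥) (hUs : Stable ρ U)
    (hmin : ∀ U' : Submodule K W, Stable ρ U' → U' ≤ U → U' ≠ ⊥ → U' = U)
    (g₀ : G) (hns : ∀ c : K, ∃ u ∈ U, ρ g₀ u ≠ c • u) : finrank K U = 2 := by
  have : Nontrivial U := Submodule.nontrivial_iff_ne_bot.mpr hU0
  obtain ⟨lam, hlam⟩ := Module.End.exists_eigenvalue (restrictRep ρ hUs g₀)
  obtain ⟨v, hv⟩ := hlam.exists_hasEigenvector
  have hv1 : ρ g₀ (v : W) = lam • (v : W) := by
    have := congrArg (fun x : U => (x : W)) hv.apply_eq_smul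
    simpa [restrictRep_apply] using this
  have hv0 : (v : W) ≠ 0 := fun h => hv.2 (Subtype.ext h)
  have hle : finrank K U ≤ 2 :=
    finrank_le_two ρ ω t ht hUs hmin g₀ v.2 hv0 hv1 (hns lam)
  have hge : ¬ finrank K U ≤ 1 := by
    intro h1
    obtain ⟨v₀, hv₀⟩ := finrank_le_one_iff.mp h1
    obtain ⟨c₀, hc₀⟩ := hv₀ (restrictRep ρ hUs g₀ v₀)
    obtain ⟨u, hu, hne⟩ := hns c₀
    apply hne
    obtain ⟨d, hd⟩ := hv₀ ⟨u, hu⟩
    have hd' : u = d • (v₀ : W) := by
      have := congrArg (fun x : U => (x : W)) hd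
      simpa using this.symm
    have hc' : ρ g₀ (v₀ : W) = c₀ • (v₀ : W) := by
      have := congrArg (fun x : U => (x : W)) hc₀
      simpa [restrictRep_apply] using this.symm
    rw [hd', map_smul, hc', smul_comm]
  omega

theorem matRep_charpoly [FiniteDimensional K W]
    (ht : ∀ g, QuadAt (ρ g) (t g) (ω g))
    {U : Submodule K W} (hUs : Stable ρ U) (b : Basis (Fin 2) K U)
    (g₀ : G) (hns : ∀ c : K, ∃ u ∈ U, ρ g₀ u ≠ c • u)
    (g : G) {a : K} (ha : QuadAt (ρ g) a (ω g)) :
    (matRep ρ hUs b g).charpoly = X ^ 2 - C a * X + C (ω g) := by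
  have hns₀ : ∀ c : K, matRep ρ hUs b g₀ ≠ c • (1 : Matrix (Fin 2) (Fin 2) K) := by
    intro c hc
    obtain ⟨u, hu, hne⟩ := hns c
    exact hne (matRep_eq_smul_one ρ hUs b hc u hu)
  apply charpoly_of_trace_det
  by_cases hsc : ∃ r : K, matRep ρ hUs b g = r • (1 : Matrix (Fin 2) (Fin 2) K)
  · obtain ⟨r, hr⟩ := hsc
    have hr0 : r ≠ 0 := by
      rintro rfl
      rw [zero_smul] at hr
      have h1 : matRep ρ hUs b g * matRep ρ hUs b g⁻¹ = 1 := by
        rw [← map_mul, mul_inv_cancel, map_one]
      rw [hr, zero_mul] at h1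
      exact zero_ne_one h1
    have hmul : matRep ρ hUs b (g * g₀) = r • matRep ρ hUs b g₀ := by
      rw [map_mul, hr, smul_mul_assoc, one_mul]
    have hns' : ∀ c : K, matRep ρ hUs b (g * g₀) ≠ c • (1 : Matrix (Fin 2) (Fin 2) K) := by
      intro c hc
      apply hns₀ (r⁻¹ * c)
      rw [hmul] at hc
      rw [mul_smul, ← hc, smul_smul, inv_mul_cancel₀ hr0, one_smul]
    have h1 := (trace_det_of_quad (matRep_quad ρ hUs b (ht (g * g₀))) hns').2
    have h2 := (trace_det_of_quad (matRep_quad ρ hUs b (ht g₀)) hns₀).2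
    rw [hmul, Matrix.det_smul, h2, Fintype.card_fin, map_mul] at h1
    have h3 : r * r = ω g := by
      have := mul_right_cancel₀ (omega_ne_zero ω g₀) h1
      rw [← this, pow_two]
    exact trace_det_scalar (matRep_quad ρ hUs b ha) hr h3 (omega_ne_zero ω g)
  · push Not at hsc
    exact trace_det_of_quad (matRep_quad ρ hUs b ha) hsc

end NS

end Fermat.Agent.S29
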