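import Fermat.Agent.S29.TwoDimC

set_option autoImplicit false

/-!
# S29 endgame, part (A5): QuadRep, algebraically closed characteristic-free version

Main result `Fermat.Agent.S29.exists_matrix_rep`.
-/

namespace Fermat.Agent.S29

open Module Polynomial

section CaseS

variable {G : Type*} [Group G] {K : Type*} [Field K] {W : Type*} [AddCommGroup W] [Module K W]
variable (ρ : G →* Module.End K W) (ω : G →* K)

/-- the diagonal representation `diag(χ, ω/χ)` -/
noncomputable def diagRep (χ : G →* K) : G →* Matrix (Fin 2) (Fin 2) K where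
  toFun g := !![χ g, 0; 0, ω g * (χ g)⁻¹]
  map_one' := by
    simp [Matrix.one_fin_two]
  map_mul' g h := by
    rw [Matrix.mul_fin_two]
    simp only [map_mul, mul_zero, add_zero, zero_mul, zero_add, mul_inv]
    congr 1
    ext i j
    fin_cases i <;> fin_cases j <;> simp <;> ring

theorem diagRep_apply (χ : G →* K) (g : G) :
    diagRep ω χ g = !![χ g, 0; 0, ω g * (χ g)⁻¹] := rfl

/-- the character by which `G` acts on a stable subspace on which every element is a scalar -/
theorem exists_char_of_scalar {U : Submodule K W} (hU0 : U ≠ ⊥)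
    (hS : ∀ g, ∃ c : K, ∀ u ∈ U, ρ g u = c • u) :
    ∃ χ : G →* K, ∀ g, ∀ u ∈ U, ρ g u = χ g • u := by
  classical
  choose χ₀ hχ₀ using hS
  obtain ⟨v, hvU, hv0⟩ := Submodule.exists_mem_ne_zero_of_ne_bot hU0
  have hinj : ∀ a b : K, a • v = b • v → a = b := fun a b h =>
    smul_left_injective K hv0 h
  refine ⟨{ toFun := χ₀, map_one' := ?_, map_mul' := ?_ }, fun g u hu => hχ₀ g u hu⟩
  · apply hinj
    rw [← hχ₀ 1 v hvU, map_one, one_smul, Module.End.one_apply]
  · intro g h
    apply hinj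
    rw [← hχ₀ (g * h) v hvU, map_mul, Module.End.mul_apply, hχ₀ h v hvU, map_smul,
      hχ₀ g v hvU, smul_smul, mul_comm]

theorem diagRep_charpoly {U : Submodule K W} (hU0 : U ≠ ⊥) (χ : G →* K)
    (hχ : ∀ g, ∀ u ∈ U, ρ g u = χ g • u) (g : G) {a : K} (ha : QuadAt (ρ g) a (ω g)) :
    (diagRep ω χ g).charpoly = X ^ 2 - C a * X + C (ω g) := by
  obtain ⟨v, hvU, hv0⟩ := Submodule.exists_mem_ne_zero_of_ne_bot hU0
  have hχ0 : χ g ≠ 0 := omega_ne_zero χ g
  have h' : ρ g * ρ g - a • ρ g + ω g • (1 : Module.End K W) = 0 := ha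
  have h1 := congrArg (fun f : Module.End K W => f v) h'
  simp only [LinearMap.add_apply, LinearMap.sub_apply, Module.End.mul_apply,
    LinearMap.smul_apply, Module.End.one_apply, LinearMap.zero_apply, hχ g v hvU, map_smul,
    smul_smul, ← sub_smul, ← add_smul] at h1
  have h2 : χ g * χ g - a * χ g + ω g = 0 := by
    by_contra hne
    exact smul_ne_zero hne hv0 h1
  apply charpoly_of_trace_det
  rw [diagRep_apply, Matrix.trace_fin_two_of, Matrix.det_fin_two_of]
  constructor
  · field_simp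
    linear_combination h2
  · field_simp
    ring

theorem diagRep_eq_one {U : Submodule K W} (hU0 : U ≠ ⊥) (χ : G →* K)
    (hχ : ∀ g, ∀ u ∈ U, ρ g u = χ g • u) {g : G} (h1 : ρ g = 1) (h2 : ω g = 1) :
    diagRep ω χ g = 1 := by
  obtain ⟨v, hvU, hv0⟩ := Submodule.exists_mem_ne_zero_of_ne_bot hU0
  have : χ g = 1 := by
    apply smul_left_injective K hv0
    show χ g • v = (1 : K) • v
    rw [← hχ g v hvU, h1, one_smul, Module.End.one_apply]
  rw [diagRep_apply, this, h2]
  simp [Matrix.one_fin_two]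

end CaseS

section Main

variable {G : Type*} [Group G] {K : Type*} [Field K] {W : Type*} [AddCommGroup W] [Module K W]

/-- **QuadRep (algebraically closed, characteristic free).** -/
theorem exists_matrix_rep [IsAlgClosed K] [FiniteDimensional K W] [Nontrivial W]
    (ρ : G →* Module.End K W) (ω : G →* K)
    (hq : ∀ g, ∃ t, QuadAt (ρ g) t (ω g)) :
    ∃ M : G →* Matrix (Fin 2) (Fin 2) K,
      (∀ g a, QuadAt (ρ g) a (ω g) → (M g).charpoly = X ^ 2 - C a * X + C (ω g)) ∧
      (∀ g, ρ g = 1 → ω g = 1 → M g = 1) := by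
  classical
  choose t ht using hq
  obtain ⟨U, hU0, hUs, hmin⟩ := exists_minimal_stable ρ
  by_cases hS : ∀ g, ∃ c : K, ∀ u ∈ U, ρ g u = c • u
  · obtain ⟨χ, hχ⟩ := exists_char_of_scalar ρ hU0 hS
    exact ⟨diagRep ω χ, fun g a ha => diagRep_charpoly ρ ω hU0 χ hχ g ha,
      fun g h1 h2 => diagRep_eq_one ρ ω hU0 χ hχ h1 h2⟩
  · push Not at hS
    obtain ⟨g₀, hns⟩ := hS
    have hfr := finrank_eq_two ρ ω t ht hU0 hUs hmin g₀ hns
    let b : Basis (Fin 2) K U := Module.finBasisOfFinrankEq K U hfr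
    refine ⟨matRep ρ hUs b, fun g a ha => matRep_charpoly ρ ω t ht hUs b g₀ hns g ha,
      fun g h1 _ => ?_⟩
    rw [matRep_apply, restrictRep_eq_one ρ hUs h1, map_one]

end Main

end Fermat.Agent.S29
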